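/-
S56 helper (helper966): the Prelude local conditions are stable under base change along local
ring homomorphisms and invariant under equivalence.  Needed by the tangent-space dictionary
(the universal property of `DeformationRingData` is applied to `DQ.ρ.baseChangeAlong φ hφ`
for `φ : DQ.R → k[ε]`).  Imports Prelude only.
-/
import Fermat.Prelude.Def_GaloisRep_StrictOrdinary
import Fermat.Prelude.Def_GaloisRep_Flat

set_option autoImplicit false
set_option linter.style.haveILetI false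

noncomputable section

namespace Fermat.Agent.S56.H966

open scoped TensorProduct

variable {A : Type} [CommRing A] [IsLocalRing A] {B : Type} [CommRing B] [IsLocalRing B]

/-- A local homomorphism maps the maximal ideal into the maximal ideal. -/
theorem map_mem_maximalIdeal (φ : A →+* B) (hφ : IsLocalHom φ) {a : A}
    (ha : a ∈ IsLocalRing.maximalIdeal A) : φ a ∈ IsLocalRing.maximalIdeal B := by
  haveI := hφ
  rw [IsLocalRing.mem_maximalIdeal, mem_nonunits_iff] at ha ⊢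
  exact fun h => ha (isUnit_of_map_unit φ a h)

/-- The Galois action of a base change, as a definitional unfolding. -/
theorem baseChangeAlong_rho (φ : A →+* B) (hφ : IsLocalHom φ) (ρ : GaloisRepAdic A)
    (σ : AlgebraicClosure ℚ ≃ₐ[ℚ] AlgebraicClosure ℚ) :
    (ρ.baseChangeAlong φ hφ).ρ σ =
      letI : Algebra A B := φ.toAlgebra
      (ρ.ρ σ).baseChange B := rfl

theorem detIsCyclotomic_baseChangeAlong (φ : A →+* B) (hφ : IsLocalHom φ)
    {ρ : GaloisRepAdic A} {p : ℕ} (h : ρ.DetIsCyclotomic p) :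
    (ρ.baseChangeAlong φ hφ).DetIsCyclotomic p := by
  letI : Algebra A B := φ.toAlgebra
  refine ⟨?_, fun n σ a ha => ?_⟩
  · have := map_mem_maximalIdeal φ hφ h.1
    rwa [map_natCast] at this
  · have h1 := h.2 n σ a ha
    have hdet : LinearMap.det ((ρ.baseChangeAlong φ hφ).ρ σ) = φ (LinearMap.det (ρ.ρ σ)) := by
      rw [baseChangeAlong_rho]
      exact LinearMap.det_baseChange (ρ.ρ σ)
    rw [hdet]
    obtain ⟨c, hc⟩ := Ideal.mem_span_singleton'.mp h1
    rw [Ideal.mem_span_singleton']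
    refine ⟨φ c, ?_⟩
    have := congrArg φ hc
    rw [map_mul, map_sub, map_natCast, map_natCast] at this
    exact this

theorem isUnramifiedAt_baseChangeAlong (φ : A →+* B) (hφ : IsLocalHom φ)
    {ρ : GaloisRepAdic A} {q : ℕ} (h : ρ.IsUnramifiedAt q) :
    (ρ.baseChangeAlong φ hφ).IsUnramifiedAt q := by
  letI : Algebra A B := φ.toAlgebra
  intro P hP σ hσ
  rw [baseChangeAlong_rho, h P hP σ hσ]
  exact LinearMap.baseChange_one A ρ.V

theorem isUnipotentOnInertiaAt_baseChangeAlong (φ : A →+* B) (hφ : IsLocalHom φ)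
    {ρ : GaloisRepAdic A} {q : ℕ} (h : ρ.IsUnipotentOnInertiaAt q) :
    (ρ.baseChangeAlong φ hφ).IsUnipotentOnInertiaAt q := by
  letI : Algebra A B := φ.toAlgebra
  intro P hP σ hσ
  have h1 := h P hP σ hσ
  have : LinearMap.charpoly ((ρ.baseChangeAlong φ hφ).ρ σ) =
      (LinearMap.charpoly (ρ.ρ σ)).map φ := by
    rw [baseChangeAlong_rho]
    exact LinearMap.charpoly_baseChange (ρ.ρ σ) B
  rw [this, h1]
  simp

/-- For `u` in the line `A ∙ b₀`, every pure tensor `c ⊗ u` lies in the line `B ∙ (1 ⊗ b₀)`. -/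
theorem tmul_mem_span_of_mem (φ : A →+* B) {V : Type} [AddCommGroup V] [Module A V] (b0 : V)
    {u : V} (hu : u ∈ Submodule.span A {b0}) (c : B) :
    letI : Algebra A B := φ.toAlgebra
    (c ⊗ₜ[A] u : B ⊗[A] V) ∈ Submodule.span B {(1 : B) ⊗ₜ[A] b0} := by
  letI : Algebra A B := φ.toAlgebra
  obtain ⟨a, rfl⟩ := Submodule.mem_span_singleton.mp hu
  rw [Submodule.mem_span_singleton]
  refine ⟨c * φ a, ?_⟩
  rw [TensorProduct.tmul_smul, TensorProduct.smul_tmul', TensorProduct.smul_tmul', smul_eq_mul,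
    mul_one, Algebra.smul_def, mul_comm]
  rfl

section core

variable (φ : A →+* B) {V : Type} [AddCommGroup V] [Module A V]

/-- `c ⊗ (a • v) = (φ a * c) ⊗ v` in `B ⊗[A] V`. -/
theorem tmul_smul_eq (c : B) (a : A) (v : V) :
    letI : Algebra A B := φ.toAlgebra
    (c ⊗ₜ[A] (a • v) : B ⊗[A] V) = (φ a * c) ⊗ₜ[A] v := by
  letI : Algebra A B := φ.toAlgebra
  rw [TensorProduct.tmul_smul, TensorProduct.smul_tmul', Algebra.smul_def]
  rfl

/-- If `f v - z • v ∈ A ∙ b₀` for all `v` then `f_B w - φ z • w ∈ B ∙ (1 ⊗ b₀)` for all `w`. -/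
theorem baseChange_sub_smul_mem (b0 : V) (f : V →ₗ[A] V) (z : A)
    (hf : ∀ v, f v - z • v ∈ Submodule.span A {b0}) :
    letI : Algebra A B := φ.toAlgebra
    ∀ w : B ⊗[A] V, f.baseChange B w - φ z • w ∈ Submodule.span B {(1 : B) ⊗ₜ[A] b0} := by
  letI : Algebra A B := φ.toAlgebra
  intro w
  induction w using TensorProduct.induction_on with
  | zero => simp
  | tmul c v =>
    have h1 : f.baseChange B (c ⊗ₜ[A] v) - φ z • (c ⊗ₜ[A] v) = c ⊗ₜ[A] (f v - z • v) := by
      rw [LinearMap.baseChange_tmul, TensorProduct.tmul_sub, tmul_smul_eq φ c z v,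
        TensorProduct.smul_tmul', smul_eq_mul]
    rw [h1]
    exact tmul_mem_span_of_mem φ b0 (hf v) c
  | add x y hx hy =>
    rw [map_add, smul_add, add_sub_add_comm]
    exact Submodule.add_mem _ hx hy

/-- If `f` acts on `A ∙ b₀` by the scalar `x` then `f_B` acts on `B ∙ (1 ⊗ b₀)` by `φ x`. -/
theorem baseChange_eq_smul_of_mem (b0 : V) (f : V →ₗ[A] V) (x : A)
    (hf : ∀ w ∈ Submodule.span A {b0}, f w = x • w) :
    letI : Algebra A B := φ.toAlgebra
    ∀ w ∈ Submodule.span B {(1 : B) ⊗ₜ[A] b0}, f.baseChange B w = φ x • w := by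
  letI : Algebra A B := φ.toAlgebra
  intro w hw
  obtain ⟨c, rfl⟩ := Submodule.mem_span_singleton.mp hw
  rw [map_smul, LinearMap.baseChange_tmul, hf _ (Submodule.mem_span_singleton_self _),
    tmul_smul_eq φ 1 x b0, mul_one, TensorProduct.smul_tmul', TensorProduct.smul_tmul',
    TensorProduct.smul_tmul', smul_eq_mul, smul_eq_mul, smul_eq_mul, mul_one, mul_comm]

/-- If `f` preserves `A ∙ b₀` then `f_B` preserves `B ∙ (1 ⊗ b₀)`. -/
theorem baseChange_mem_span_of_mem (b0 : V) (f : V →ₗ[A] V)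
    (hf : ∀ v ∈ Submodule.span A {b0}, f v ∈ Submodule.span A {b0}) :
    letI : Algebra A B := φ.toAlgebra
    ∀ w ∈ Submodule.span B {(1 : B) ⊗ₜ[A] b0},
      f.baseChange B w ∈ Submodule.span B {(1 : B) ⊗ₜ[A] b0} := by
  letI : Algebra A B := φ.toAlgebra
  intro w hw
  obtain ⟨c, rfl⟩ := Submodule.mem_span_singleton.mp hw
  rw [map_smul, LinearMap.baseChange_tmul]
  exact Submodule.smul_mem _ _
    (tmul_mem_span_of_mem φ b0 (hf _ (Submodule.mem_span_singleton_self _)) 1)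

/-- The base-changed line is spanned by the first vector of the base-changed basis. -/
theorem span_eq_span_baseChange (b : Module.Basis (Fin 2) A V) :
    letI : Algebra A B := φ.toAlgebra
    (Submodule.span B {(1 : B) ⊗ₜ[A] b 0} : Submodule B (B ⊗[A] V)) =
      Submodule.span B {b.baseChange B 0} := by
  letI : Algebra A B := φ.toAlgebra
  rw [Module.Basis.baseChange_apply]

end core

theorem isStrictOrdinaryAt_baseChangeAlong (φ : A →+* B) (hφ : IsLocalHom φ)
    {ρ : GaloisRepAdic A} {p : ℕ} (h : ρ.IsStrictOrdinaryAt p) :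
    (ρ.baseChangeAlong φ hφ).IsStrictOrdinaryAt p := by
  letI : Algebra A B := φ.toAlgebra
  refine ⟨?_, fun P hP => ?_⟩
  · have := map_mem_maximalIdeal φ hφ h.1
    rwa [map_natCast] at this
  obtain ⟨L, ⟨b, rfl⟩, hD, hI, hx⟩ := h.2 P hP
  refine ⟨(Submodule.span B {(1 : B) ⊗ₜ[A] b 0} : Submodule B (B ⊗[A] ρ.V)),
    ⟨b.baseChange B, span_eq_span_baseChange φ b⟩, ?_, ?_, ?_⟩
  · intro σ hσ v hv
    exact baseChange_mem_span_of_mem φ (b 0) (ρ.ρ σ) (hD σ hσ) v hv
  · intro σ hσ w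
    have := baseChange_sub_smul_mem φ (b 0) (ρ.ρ σ) 1
      (fun v => by rw [one_smul]; exact hI σ hσ v) w
    rw [map_one, one_smul] at this
    exact this
  · intro σ hσ
    obtain ⟨x, z, hx1, hz1, hxz⟩ := hx σ hσ
    refine ⟨φ x, φ z, fun w hw => baseChange_eq_smul_of_mem φ (b 0) (ρ.ρ σ) x hx1 w hw,
      fun w => baseChange_sub_smul_mem φ (b 0) (ρ.ρ σ) z hz1 w, fun n a ha => ?_⟩
    obtain ⟨c, hc⟩ := Ideal.mem_span_singleton'.mp (hxz n a ha)
    rw [Ideal.mem_span_singleton']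
    refine ⟨φ c, ?_⟩
    have := congrArg φ hc
    rw [map_mul, map_sub, map_mul, map_natCast, map_natCast] at this
    exact this

/-! ### Flatness: base change along a surjective local homomorphism -/

section flat

/-- Coordinates of an element of `I • ⊤` lie in `I`. -/
theorem repr_mem_of_mem_smul_top {R M ι : Type*} [CommRing R] [AddCommGroup M] [Module R M]
    (b : Module.Basis ι R M) (I : Ideal R) {x : M} (hx : x ∈ I • (⊤ : Submodule R M)) (i : ι) :
    b.repr x i ∈ I := by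
  refine Submodule.smul_induction_on (p := fun x => b.repr x i ∈ I) hx ?_ ?_
  · intro a ha m _
    rw [map_smul, Finsupp.smul_apply, smul_eq_mul]
    exact I.mul_mem_right _ ha
  · intro x y hx hy
    rw [map_add, Finsupp.add_apply]
    exact I.add_mem hx hy

variable (φ : A →+* B) {V : Type} [AddCommGroup V] [Module A V]

/-- The comparison map `V ⧸ φ⁻¹(I) V → (B ⊗ V) ⧸ I (B ⊗ V)`, `[v] ↦ [1 ⊗ v]`. -/
def levelMap (I : Ideal B) :
    letI : Algebra A B := φ.toAlgebra
    (V ⧸ ((I.comap φ) • (⊤ : Submodule A V))) →+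
      ((B ⊗[A] V) ⧸ (I • (⊤ : Submodule B (B ⊗[A] V)))) :=
  letI : Algebra A B := φ.toAlgebra
  QuotientAddGroup.lift _
    (((I • (⊤ : Submodule B (B ⊗[A] V))).mkQ.toAddMonoidHom).comp
      ((TensorProduct.mk A B V 1).toAddMonoidHom))
    (by
      intro x hx
      change x ∈ (I.comap φ) • (⊤ : Submodule A V) at hx
      rw [AddMonoidHom.mem_ker]
      change (I • (⊤ : Submodule B (B ⊗[A] V))).mkQ ((1 : B) ⊗ₜ[A] x) = 0
      rw [Submodule.mkQ_apply, Submodule.Quotient.mk_eq_zero]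
      refine Submodule.smul_induction_on
        (p := fun x => (1 : B) ⊗ₜ[A] x ∈ I • (⊤ : Submodule B (B ⊗[A] V))) hx ?_ ?_
      · intro a ha m _
        rw [tmul_smul_eq φ 1 a m, mul_one]
        have : (φ a ⊗ₜ[A] m : B ⊗[A] V) = φ a • ((1 : B) ⊗ₜ[A] m) := by
          rw [TensorProduct.smul_tmul', smul_eq_mul, mul_one]
        rw [this]
        exact Submodule.smul_mem_smul ha Submodule.mem_top
      · intro x y hx hy
        rw [TensorProduct.tmul_add]
        exact Submodule.add_mem _ hx hy)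

theorem levelMap_mk (I : Ideal B) (v : V) :
    letI : Algebra A B := φ.toAlgebra
    levelMap φ I (Submodule.Quotient.mk v : V ⧸ ((I.comap φ) • (⊤ : Submodule A V))) =
      Submodule.Quotient.mk ((1 : B) ⊗ₜ[A] v) := rfl

theorem levelMap_surjective (hsurj : Function.Surjective φ) (I : Ideal B) :
    Function.Surjective (levelMap (V := V) φ I) := by
  letI : Algebra A B := φ.toAlgebra
  intro y
  obtain ⟨w, rfl⟩ := Submodule.Quotient.mk_surjective _ y
  induction w using TensorProduct.induction_on with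
  | zero => exact ⟨0, by rw [map_zero]; rfl⟩
  | tmul c v =>
    obtain ⟨a, rfl⟩ := hsurj c
    refine ⟨Submodule.Quotient.mk (a • v), ?_⟩
    rw [levelMap_mk, tmul_smul_eq φ 1 a v, mul_one]
  | add x y hx hy =>
    obtain ⟨x', hx'⟩ := hx
    obtain ⟨y', hy'⟩ := hy
    exact ⟨x' + y', by rw [map_add, hx', hy']; rfl⟩

theorem levelMap_injective [Module.Free A V] [Module.Finite A V] (I : Ideal B) :
    Function.Injective (levelMap (V := V) φ I) := by
  letI : Algebra A B := φ.toAlgebra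
  rw [injective_iff_map_eq_zero]
  intro x hx
  obtain ⟨v, rfl⟩ := Submodule.Quotient.mk_surjective _ x
  rw [levelMap_mk, Submodule.Quotient.mk_eq_zero] at hx
  rw [Submodule.Quotient.mk_eq_zero]
  let b := Module.Free.chooseBasis A V
  have hcoord : ∀ i, b.repr v i ∈ I.comap φ := by
    intro i
    have h1 := repr_mem_of_mem_smul_top (b.baseChange B) I hx i
    rw [Module.Basis.baseChange_repr_tmul, Algebra.smul_def, mul_one] at h1
    exact h1
  rw [← b.sum_repr v]
  exact Submodule.sum_mem _ fun i _ => Submodule.smul_mem_smul (hcoord i) Submodule.mem_top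

end flat

/-- The comparison map intertwines the level actions. -/
theorem levelMap_levelAction (φ : A →+* B) (hφ : IsLocalHom φ) (ρ : GaloisRepAdic A)
    (I : Ideal B) (σ : AlgebraicClosure ℚ ≃ₐ[ℚ] AlgebraicClosure ℚ)
    (x : ρ.V ⧸ ((I.comap φ) • (⊤ : Submodule A ρ.V))) :
    levelMap φ I (ρ.levelAction (I.comap φ) σ x) =
      (ρ.baseChangeAlong φ hφ).levelAction I σ (levelMap φ I x) := by
  obtain ⟨v, rfl⟩ := Submodule.Quotient.mk_surjective _ x
  rfl

theorem isFlatAt_baseChangeAlong_of_surjective (φ : A →+* B) (hφ : IsLocalHom φ)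
    (hsurj : Function.Surjective φ) {ρ : GaloisRepAdic A} {p : ℕ} (h : ρ.IsFlatAt p) :
    (ρ.baseChangeAlong φ hφ).IsFlatAt p := by
  letI : Algebra A B := φ.toAlgebra
  haveI := hφ
  obtain ⟨hfin, hH⟩ := h
  refine ⟨?_, fun I hI => ?_⟩
  · haveI := hfin
    refine Finite.of_surjective (IsLocalRing.ResidueField.map φ) ?_
    intro y
    obtain ⟨b, rfl⟩ := IsLocalRing.residue_surjective y
    obtain ⟨a, rfl⟩ := hsurj b
    exact ⟨IsLocalRing.residue A a, IsLocalRing.ResidueField.map_residue φ a⟩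
  · haveI := hI
    have hJ : Finite (A ⧸ I.comap φ) :=
      Finite.of_injective _ (Ideal.quotientMap_injective (I := I) (f := φ))
    obtain ⟨H, i1, i2, hHfin, hHflat, hHco, e, he_add, he_gal⟩ := hH (I.comap φ) hJ
    refine ⟨H, i1, i2, hHfin, hHflat, hHco, ?_⟩
    refine ⟨e.trans (Equiv.ofBijective (levelMap (V := ρ.V) φ I)
      ⟨levelMap_injective φ I, levelMap_surjective φ hsurj I⟩), ?_, ?_⟩
    · intro f g
      change levelMap φ I (e (f * g)) = levelMap φ I (e f) + levelMap φ I (e g)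
      rw [he_add, map_add]
    · intro σ f g hfg
      change levelMap φ I (e g) =
        (ρ.baseChangeAlong φ hφ).levelAction I σ (levelMap φ I (e f))
      rw [he_gal σ f g hfg]
      exact levelMap_levelAction φ hφ ρ I σ (e f)

/-! ### Invariance under equivalence -/

section equivInv

variable {ρ₁ ρ₂ : GaloisRepAdic A}

/-- An equivalence conjugates the actions. -/
theorem equiv_rho_eq_conj (e : GaloisRepAdic.Equiv ρ₁ ρ₂)
    (σ : AlgebraicClosure ℚ ≃ₐ[ℚ] AlgebraicClosure ℚ) :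
    ρ₂.ρ σ = e.toLinearEquiv.conj (ρ₁.ρ σ) := by
  refine LinearMap.ext fun y => ?_
  rw [LinearEquiv.conj_apply_apply, e.map_apply, LinearEquiv.apply_symm_apply]

theorem detIsCyclotomic_of_isEquiv (he : ρ₁.IsEquiv ρ₂) {p : ℕ} (h : ρ₁.DetIsCyclotomic p) :
    ρ₂.DetIsCyclotomic p := by
  obtain ⟨e⟩ := he
  refine ⟨h.1, fun n σ a ha => ?_⟩
  have hdet : LinearMap.det (ρ₂.ρ σ) = LinearMap.det (ρ₁.ρ σ) := by
    rw [equiv_rho_eq_conj e σ]
    exact LinearMap.det_conj (ρ₁.ρ σ) e.toLinearEquiv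
  rw [hdet]
  exact h.2 n σ a ha

theorem isUnramifiedAt_of_isEquiv (he : ρ₁.IsEquiv ρ₂) {q : ℕ} (h : ρ₁.IsUnramifiedAt q) :
    ρ₂.IsUnramifiedAt q := by
  obtain ⟨e⟩ := he
  intro P hP σ hσ
  rw [equiv_rho_eq_conj e σ, h P hP σ hσ]
  refine LinearMap.ext fun y => ?_
  rw [LinearEquiv.conj_apply_apply, Module.End.one_apply, LinearEquiv.apply_symm_apply,
    Module.End.one_apply]

theorem isUnipotentOnInertiaAt_of_isEquiv (he : ρ₁.IsEquiv ρ₂) {q : ℕ}
    (h : ρ₁.IsUnipotentOnInertiaAt q) : ρ₂.IsUnipotentOnInertiaAt q := by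
  obtain ⟨e⟩ := he
  intro P hP σ hσ
  rw [equiv_rho_eq_conj e σ, LinearEquiv.charpoly_conj]
  exact h P hP σ hσ

theorem isStrictOrdinaryAt_of_isEquiv (he : ρ₁.IsEquiv ρ₂) {p : ℕ}
    (h : ρ₁.IsStrictOrdinaryAt p) : ρ₂.IsStrictOrdinaryAt p := by
  obtain ⟨e⟩ := he
  refine ⟨h.1, fun P hP => ?_⟩
  obtain ⟨L, ⟨b, rfl⟩, hD, hI, hx⟩ := h.2 P hP
  have hmem : ∀ {u : ρ₁.V}, u ∈ Submodule.span A {b 0} →
      e.toLinearEquiv u ∈ Submodule.span A {e.toLinearEquiv (b 0)} := by
    intro u hu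
    obtain ⟨a, rfl⟩ := Submodule.mem_span_singleton.mp hu
    rw [map_smul]
    exact Submodule.smul_mem _ _ (Submodule.mem_span_singleton_self _)
  have hsub : ∀ (σ : AlgebraicClosure ℚ ≃ₐ[ℚ] AlgebraicClosure ℚ) (z : A),
      (∀ v, ρ₁.ρ σ v - z • v ∈ Submodule.span A {b 0}) →
      ∀ w, ρ₂.ρ σ w - z • w ∈ Submodule.span A {e.toLinearEquiv (b 0)} := by
    intro σ z hz w
    have := hmem (hz (e.toLinearEquiv.symm w))
    rwa [map_sub, map_smul, e.map_apply, LinearEquiv.apply_symm_apply] at this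
  refine ⟨Submodule.span A {e.toLinearEquiv (b 0)}, ⟨b.map e.toLinearEquiv, ?_⟩, ?_, ?_, ?_⟩
  · rw [Module.Basis.map_apply]
  · intro σ hσ v hv
    obtain ⟨a, rfl⟩ := Submodule.mem_span_singleton.mp hv
    rw [map_smul, ← e.map_apply]
    exact Submodule.smul_mem _ _ (hmem (hD σ hσ _ (Submodule.mem_span_singleton_self _)))
  · intro σ hσ w
    have := hsub σ 1 (fun v => by rw [one_smul]; exact hI σ hσ v) w
    rwa [one_smul] at this
  · intro σ hσ
    obtain ⟨x, z, hx1, hz1, hxz⟩ := hx σ hσ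
    refine ⟨x, z, ?_, hsub σ z hz1, hxz⟩
    intro w hw
    obtain ⟨a, rfl⟩ := Submodule.mem_span_singleton.mp hw
    rw [map_smul, ← e.map_apply, hx1 _ (Submodule.mem_span_singleton_self _), map_smul,
      smul_comm]

end equivInv

section flatEquiv

variable {ρ₁ ρ₂ : GaloisRepAdic A}

/-- The isomorphism `V₁ ⧸ I V₁ ≃ V₂ ⧸ I V₂` induced by an equivalence. -/
def levelEquiv (e : GaloisRepAdic.Equiv ρ₁ ρ₂) (I : Ideal A) :
    (ρ₁.V ⧸ (I • (⊤ : Submodule A ρ₁.V))) ≃ₗ[A] (ρ₂.V ⧸ (I • (⊤ : Submodule A ρ₂.V))) :=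
  Submodule.Quotient.equiv _ _ e.toLinearEquiv (by
    rw [Submodule.map_smul'', Submodule.map_top, LinearEquiv.range])

theorem levelEquiv_levelAction (e : GaloisRepAdic.Equiv ρ₁ ρ₂) (I : Ideal A)
    (σ : AlgebraicClosure ℚ ≃ₐ[ℚ] AlgebraicClosure ℚ)
    (x : ρ₁.V ⧸ (I • (⊤ : Submodule A ρ₁.V))) :
    levelEquiv e I (ρ₁.levelAction I σ x) = ρ₂.levelAction I σ (levelEquiv e I x) := by
  obtain ⟨v, rfl⟩ := Submodule.Quotient.mk_surjective _ x
  change Submodule.Quotient.mk (e.toLinearEquiv (ρ₁.ρ σ v)) =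
    Submodule.Quotient.mk (ρ₂.ρ σ (e.toLinearEquiv v))
  rw [e.map_apply]

theorem isFlatAt_of_isEquiv (he : ρ₁.IsEquiv ρ₂) {p : ℕ} (h : ρ₁.IsFlatAt p) :
    ρ₂.IsFlatAt p := by
  obtain ⟨e⟩ := he
  refine ⟨h.1, fun I hI => ?_⟩
  obtain ⟨H, i1, i2, hHfin, hHflat, hHco, f, hf_add, hf_gal⟩ := h.2 I hI
  refine ⟨H, i1, i2, hHfin, hHflat, hHco, f.trans (levelEquiv e I).toEquiv, ?_, ?_⟩
  · intro a b
    change levelEquiv e I (f (a * b)) = levelEquiv e I (f a) + levelEquiv e I (f b)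
    rw [hf_add, map_add]
  · intro σ a b hab
    change levelEquiv e I (f b) = ρ₂.levelAction I σ (levelEquiv e I (f a))
    rw [hf_gal σ a b hab]
    exact levelEquiv_levelAction e I σ (f a)

end flatEquiv

/-! ### The deformation conditions of S56 -/

section conditions

variable (𝒪 : Type) [CommRing 𝒪] [Algebra 𝒪 A] [Algebra 𝒪 B]

theorem strictOrdinaryCondition_baseChangeAlong (φ : A →+* B) (hφ : IsLocalHom φ)
    {p : ℕ} {S : Finset ℕ} {ρ : GaloisRepAdic A}
    (h : GaloisRep.strictOrdinaryCondition 𝒪 p S ρ) :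
    GaloisRep.strictOrdinaryCondition 𝒪 p S (ρ.baseChangeAlong φ hφ) :=
  ⟨detIsCyclotomic_baseChangeAlong φ hφ h.1, isStrictOrdinaryAt_baseChangeAlong φ hφ h.2.1,
    fun q hq hqS => isUnramifiedAt_baseChangeAlong φ hφ (h.2.2 q hq hqS)⟩

theorem flatCondition_baseChangeAlong_of_surjective (φ : A →+* B) (hφ : IsLocalHom φ)
    (hsurj : Function.Surjective φ) {p : ℕ} {S : Finset ℕ} {ρ : GaloisRepAdic A}
    (h : GaloisRep.flatCondition 𝒪 p S ρ) :
    GaloisRep.flatCondition 𝒪 p S (ρ.baseChangeAlong φ hφ) :=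
  ⟨detIsCyclotomic_baseChangeAlong φ hφ h.1,
    isFlatAt_baseChangeAlong_of_surjective φ hφ hsurj h.2.1,
    fun q hq hqS => isUnramifiedAt_baseChangeAlong φ hφ (h.2.2 q hq hqS)⟩

theorem strictOrdinaryCondition_of_isEquiv {p : ℕ} {S : Finset ℕ} {ρ₁ ρ₂ : GaloisRepAdic A}
    (he : ρ₁.IsEquiv ρ₂) (h : GaloisRep.strictOrdinaryCondition 𝒪 p S ρ₁) :
    GaloisRep.strictOrdinaryCondition 𝒪 p S ρ₂ :=
  ⟨detIsCyclotomic_of_isEquiv he h.1, isStrictOrdinaryAt_of_isEquiv he h.2.1,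
    fun q hq hqS => isUnramifiedAt_of_isEquiv he (h.2.2 q hq hqS)⟩

theorem flatCondition_of_isEquiv {p : ℕ} {S : Finset ℕ} {ρ₁ ρ₂ : GaloisRepAdic A}
    (he : ρ₁.IsEquiv ρ₂) (h : GaloisRep.flatCondition 𝒪 p S ρ₁) :
    GaloisRep.flatCondition 𝒪 p S ρ₂ :=
  ⟨detIsCyclotomic_of_isEquiv he h.1, isFlatAt_of_isEquiv he h.2.1,
    fun q hq hqS => isUnramifiedAt_of_isEquiv he (h.2.2 q hq hqS)⟩

end conditions

end Fermat.Agent.S56.H966
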