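import Mathlib

/-!
# S56 / W-FLAT-SS, piece FL-SS (helper966): abstract structure of an irreducible two-dimensional
representation of a "local Galois group at `p`" in characteristic `p`

Abstract setting: `G` a group, `ρ : G →* End_k V`, `dim_k V = 2`, `char k = p` odd, `ρ` irreducible.
`Pw ⊴ G` ("wild inertia") acts through elements of `p`-power order, `τ` generates the image of
inertia modulo `Pw`, `φ` ("Frobenius") generates the image of `G` modulo inertia and
`φ τ φ⁻¹ ≡ τ ^ p`.

Main results (namespace `Fermat.Agent.S56.H966.FLSS`):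
* `wild_trivial`  : `ρ w = 1` for `w ∈ Pw` (finite `k`).
* `exists_shape`  : there are `v₀ ≠ 0`, `a, d ∈ kˣ` with `ρ τ v₀ = a v₀`, `ρ τ (ρ φ v₀) = a ^ p (ρ φ v₀)`,
  `ρ φ (ρ φ v₀) = d v₀`, `a ^ p ≠ a`, `a ^ (p ^ 2) = a`, and `v₀, ρ φ v₀` is a basis.
-/

set_option autoImplicit false
set_option linter.unusedSectionVars false
set_option linter.unusedVariables false

open Polynomial Module

namespace Fermat.Agent.S56.H966.FLSS

section Core

variable {k : Type*} [Field k] {V : Type*} [AddCommGroup V] [Module k V] [Module.Finite k V]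
variable {G : Type*} [Group G]

/-- `ρ` is irreducible: the only stable subspaces are `⊥` and `⊤`. -/
def Irr (ρ : G →* Module.End k V) : Prop :=
  ∀ L : Submodule k V, (∀ g, ∀ v ∈ L, ρ g v ∈ L) → L = ⊥ ∨ L = ⊤

theorem rho_inv_mul (ρ : G →* Module.End k V) (g : G) : ρ g⁻¹ * ρ g = 1 := by
  rw [← map_mul, inv_mul_cancel, map_one]

theorem rho_mul_inv (ρ : G →* Module.End k V) (g : G) : ρ g * ρ g⁻¹ = 1 := by
  rw [← map_mul, mul_inv_cancel, map_one]

theorem rho_inv_apply (ρ : G →* Module.End k V) (g : G) (v : V) : ρ g⁻¹ (ρ g v) = v := by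
  rw [← Module.End.mul_apply, rho_inv_mul, Module.End.one_apply]

theorem rho_apply_inv (ρ : G →* Module.End k V) (g : G) (v : V) : ρ g (ρ g⁻¹ v) = v := by
  rw [← Module.End.mul_apply, rho_mul_inv, Module.End.one_apply]

theorem rho_apply_ne_zero (ρ : G →* Module.End k V) (g : G) {v : V} (hv : v ≠ 0) :
    ρ g v ≠ 0 := by
  intro h
  apply hv
  rw [← rho_inv_apply ρ g v, h, map_zero]

/-- In an irreducible two-dimensional representation there is no common eigenvector. -/
theorem no_common_eigenvector (hV : Module.finrank k V = 2) {ρ : G →* Module.End k V}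
    (hirr : Irr ρ) {v : V} (hv : v ≠ 0) (h : ∀ g, ∃ c : k, ρ g v = c • v) : False := by
  have hstab : ∀ g, ∀ w ∈ Submodule.span k {v}, ρ g w ∈ Submodule.span k {v} := by
    intro g w hw
    obtain ⟨x, rfl⟩ := Submodule.mem_span_singleton.mp hw
    obtain ⟨c, hc⟩ := h g
    rw [map_smul, hc]
    exact Submodule.smul_mem _ _ (Submodule.smul_mem _ _ (Submodule.mem_span_singleton_self v))
  rcases hirr _ hstab with h0 | h1
  · exact hv ((Submodule.span_singleton_eq_bot).mp h0)
  · have h2 : Module.finrank k (Submodule.span k {v}) = 1 := finrank_span_singleton hv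
    rw [h1, finrank_top, hV] at h2
    omega


theorem pow_apply_eigen (f : Module.End k V) {v : V} {c : k} (h : f v = c • v) (n : ℕ) :
    (f ^ n) v = c ^ n • v := by
  induction n with
  | zero => simp
  | succ n ih =>
    rw [pow_succ, Module.End.mul_apply, h, map_smul, ih, smul_smul, pow_succ, mul_comm]

/-- A root of a split characteristic polynomial gives an eigenvector. -/
theorem exists_eigenvector (hV : Module.finrank k V = 2) (f : Module.End k V)
    (hf : ∃ α β : k, LinearMap.charpoly f = (X - C α) * (X - C β)) :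
    ∃ (v : V) (c : k), v ≠ 0 ∧ f v = c • v := by
  obtain ⟨α, β, h⟩ := hf
  have hroot : (LinearMap.charpoly f).IsRoot α := by
    rw [h, Polynomial.IsRoot.def, eval_mul, eval_sub, eval_X, eval_C, sub_self, zero_mul]
  obtain ⟨v, hv⟩ := ((Module.End.hasEigenvalue_iff_isRoot_charpoly f α).mpr hroot).exists_hasEigenvector
  exact ⟨v, α, hv.2, hv.apply_eq_smul⟩

/-- Two linearly independent vectors of a plane span it. -/
theorem exists_coord (hV : Module.finrank k V = 2) {v₀ v₁ : V}
    (hli : LinearIndependent k ![v₀, v₁]) (w : V) : ∃ x y : k, w = x • v₀ + y • v₁ := by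
  let b : Module.Basis (Fin 2) k V :=
    basisOfLinearIndependentOfCardEqFinrank hli (by rw [hV]; rfl)
  have hb : ⇑b = ![v₀, v₁] := coe_basisOfLinearIndependentOfCardEqFinrank hli _
  refine ⟨b.repr w 0, b.repr w 1, ?_⟩
  conv_lhs => rw [← b.sum_repr w]
  rw [Fin.sum_univ_two, hb]
  rfl

theorem coord_unique {v₀ v₁ : V} (hli : LinearIndependent k ![v₀, v₁]) {x y x' y' : k}
    (h : x • v₀ + y • v₁ = x' • v₀ + y' • v₁) : x = x' ∧ y = y' := by
  have h1 : (x - x') • v₀ + (y - y') • v₁ = 0 := by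
    rw [sub_smul, sub_smul]
    have := sub_eq_zero.mpr h
    rw [← this]
    abel
  obtain ⟨h2, h3⟩ := LinearIndependent.pair_iff.mp hli _ _ h1
  exact ⟨sub_eq_zero.mp h2, sub_eq_zero.mp h3⟩

/-- Two vectors which are not proportional are linearly independent. -/
theorem linearIndependent_of_not_smul {v₀ v₁ : V} (hv₀ : v₀ ≠ 0)
    (h : ∀ c : k, v₁ ≠ c • v₀) : LinearIndependent k ![v₀, v₁] := by
  rw [LinearIndependent.pair_iff]
  intro s t hst
  have ht : t = 0 := by
    by_contra ht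
    apply h (-(t⁻¹ * s))
    have h1 : t • v₁ = -(s • v₀) := by
      rw [eq_neg_iff_add_eq_zero, add_comm]; exact hst
    calc v₁ = t⁻¹ • (t • v₁) := by rw [smul_smul, inv_mul_cancel₀ ht, one_smul]
      _ = -(t⁻¹ * s) • v₀ := by rw [h1, smul_neg, smul_smul, neg_smul]
  subst ht
  rw [zero_smul, add_zero] at hst
  exact ⟨(smul_eq_zero.mp hst).resolve_right hv₀, rfl⟩

section Shape

variable (p : ℕ)

/-- If the image of `ρ` is generated by `ρ φ` and a scalar `ρ τ`, then `ρ` is not irreducible. -/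
theorem not_scalar (hV : Module.finrank k V = 2) {ρ : G →* Module.End k V} (hirr : Irr ρ)
    (τ φ : G) (hgen : ∀ g, ∃ i j : ℕ, ρ g = ρ φ ^ j * ρ τ ^ i)
    (hφ : ∃ α β : k, LinearMap.charpoly (ρ φ) = (X - C α) * (X - C β))
    (c : k) (hc : ∀ v, ρ τ v = c • v) : False := by
  obtain ⟨u, β, hu, hφu⟩ := exists_eigenvector hV (ρ φ) hφ
  refine no_common_eigenvector hV hirr hu fun g => ?_
  obtain ⟨i, j, hg⟩ := hgen g
  refine ⟨β ^ j * c ^ i, ?_⟩
  rw [hg, Module.End.mul_apply, pow_apply_eigen _ (hc u), map_smul, pow_apply_eigen _ hφu,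
    smul_smul, mul_comm]

/-- **Shape of an irreducible tame representation.** -/
theorem exists_shape (hV : Module.finrank k V = 2) {ρ : G →* Module.End k V} (hirr : Irr ρ)
    (τ φ : G) (hgen : ∀ g, ∃ i j : ℕ, ρ g = ρ φ ^ j * ρ τ ^ i)
    (hrel : ρ φ * ρ τ = ρ τ ^ p * ρ φ)
    (hτ : ∃ α β : k, LinearMap.charpoly (ρ τ) = (X - C α) * (X - C β))
    (hφ : ∃ α β : k, LinearMap.charpoly (ρ φ) = (X - C α) * (X - C β)) :
    ∃ (v₀ : V) (a d : k), v₀ ≠ 0 ∧ a ≠ 0 ∧ d ≠ 0 ∧ a ^ p ≠ a ∧ a ^ (p ^ 2) = a ∧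
      LinearIndependent k ![v₀, ρ φ v₀] ∧
      ρ τ v₀ = a • v₀ ∧ ρ τ (ρ φ v₀) = a ^ p • ρ φ v₀ ∧ ρ φ (ρ φ v₀) = d • v₀ := by
  obtain ⟨v₀, a, hv₀, hA0⟩ := exists_eigenvector hV (ρ τ) hτ
  have ha : a ≠ 0 := by
    rintro rfl
    rw [zero_smul] at hA0
    exact rho_apply_ne_zero ρ τ hv₀ hA0
  set v₁ := ρ φ v₀ with hv₁def
  have hv₁ : v₁ ≠ 0 := rho_apply_ne_zero ρ φ hv₀
  -- `A ^ p (F v) = F (A v)`
  have hrel' : ∀ v, (ρ τ ^ p) (ρ φ v) = ρ φ (ρ τ v) := by
    intro v
    rw [← Module.End.mul_apply, ← hrel, Module.End.mul_apply]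
  have hcomm : ∀ v, (ρ τ ^ p) (ρ τ v) = ρ τ ((ρ τ ^ p) v) := by
    intro v
    rw [← Module.End.mul_apply, ← Module.End.mul_apply, ← pow_succ, ← pow_succ']
  have hAp1 : (ρ τ ^ p) v₁ = a • v₁ := by rw [hv₁def, hrel', hA0, map_smul]
  have hAp0 : (ρ τ ^ p) v₀ = a ^ p • v₀ := pow_apply_eigen _ hA0 p
  -- linear independence
  have hli : LinearIndependent k ![v₀, v₁] := by
    refine linearIndependent_of_not_smul hv₀ fun c hc => ?_
    refine no_common_eigenvector hV hirr hv₀ fun g => ?_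
    obtain ⟨i, j, hg⟩ := hgen g
    refine ⟨c ^ j * a ^ i, ?_⟩
    rw [hg, Module.End.mul_apply, pow_apply_eigen _ hA0, map_smul, pow_apply_eigen _ hc,
      smul_smul, mul_comm]
  -- a scalar `A ^ p` is impossible
  have hscal : ∀ c : k, (∀ v, ρ τ v = c • v) → False :=
    fun c hc => not_scalar hV hirr τ φ hgen hφ c hc
  have hap : a ^ p ≠ a := by
    intro hap
    apply hscal a
    -- `A ^ p = a`, hence `F A = a F`, hence `A = a`
    have h1 : ∀ v, (ρ τ ^ p) v = a • v := by
      intro v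
      obtain ⟨x, y, rfl⟩ := exists_coord hV hli v
      rw [map_add, map_smul, map_smul, hAp0, hAp1, hap, smul_add, smul_comm x a v₀,
        smul_comm y a v₁]
    intro v
    have h2 : ρ φ (ρ τ v) = ρ φ (a • v) := by rw [← hrel', h1, map_smul]
    have h3 := congrArg (ρ φ⁻¹) h2
    rwa [rho_inv_apply, rho_inv_apply] at h3
  -- `A v₁ = y v₁`
  obtain ⟨x, y, hxy⟩ := exists_coord hV hli (ρ τ v₁)
  have hx : x = 0 := by
    have h1 : (ρ τ ^ p) (ρ τ v₁) = a • ρ τ v₁ := by rw [hcomm, hAp1, map_smul]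
    rw [hxy, map_add, map_smul, map_smul, hAp0, hAp1, smul_add, smul_smul, smul_smul, smul_smul,
      smul_smul] at h1
    have h2 := (coord_unique hli h1).1
    have h3 : x * (a ^ p - a) = 0 := by rw [mul_sub, h2, mul_comm a x, sub_self]
    exact (mul_eq_zero.mp h3).resolve_right (sub_ne_zero.mpr hap)
  rw [hx, zero_smul, zero_add] at hxy
  have hya : y ≠ a := by
    rintro rfl
    apply hscal y
    intro v
    obtain ⟨s, t, rfl⟩ := exists_coord hV hli v
    rw [map_add, map_smul, map_smul, hA0, hxy, smul_add, smul_comm s y v₀, smul_comm t y v₁]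
  -- `F v₁ = d v₀`
  obtain ⟨s, t, hst⟩ := exists_coord hV hli (ρ φ v₁)
  have h4 : (ρ τ ^ p) (ρ φ v₁) = y • ρ φ v₁ := by rw [hrel', hxy, map_smul]
  rw [hst, map_add, map_smul, map_smul, hAp0, hAp1, smul_add, smul_smul, smul_smul, smul_smul,
    smul_smul] at h4
  obtain ⟨h5, h6⟩ := coord_unique hli h4
  have ht : t = 0 := by
    have : t * (a - y) = 0 := by rw [mul_sub, h6, mul_comm y t, sub_self]
    exact (mul_eq_zero.mp this).resolve_right (sub_ne_zero.mpr (Ne.symm hya))
  rw [ht, zero_smul, add_zero] at hst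
  have hs : s ≠ 0 := by
    rintro rfl
    rw [zero_smul] at hst
    exact rho_apply_ne_zero ρ φ hv₁ hst
  have hy : y = a ^ p := by
    have : s * (a ^ p - y) = 0 := by rw [mul_sub, h5, mul_comm y s, sub_self]
    exact (sub_eq_zero.mp ((mul_eq_zero.mp this).resolve_left hs)).symm
  have hyp : y ^ p = a := by
    have h7 : (ρ τ ^ p) v₁ = y ^ p • v₁ := pow_apply_eigen _ hxy p
    rw [hAp1] at h7
    have h8 : (a - y ^ p) • v₁ = 0 := by rw [sub_smul, h7, sub_self]
    exact (sub_eq_zero.mp ((smul_eq_zero.mp h8).resolve_right hv₁)).symm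
  refine ⟨v₀, a, s, hv₀, ha, hs, hap, ?_, hli, hA0, ?_, hst⟩
  · rw [pow_two, pow_mul, ← hy, hyp]
  · rw [hxy, hy]

end Shape


section Wild

variable (p : ℕ) [hp : Fact p.Prime] [CharP k p] [Finite k]

theorem prime_dvd_card_field : p ∣ Nat.card k := by
  haveI := Fintype.ofFinite k
  obtain ⟨n, -, h⟩ := FiniteField.card k p
  rw [Nat.card_eq_fintype_card, h]
  exact dvd_pow_self p n.ne_zero

/-- **Wild inertia acts trivially**: a normal subgroup acting through elements of `p`-power order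
acts trivially in an irreducible two-dimensional representation in characteristic `p`. -/
theorem wild_trivial (hV : Module.finrank k V = 2) {ρ : G →* Module.End k V} (hirr : Irr ρ)
    (Pw : Subgroup G) [hn : Pw.Normal] (hPw : ∀ w ∈ Pw, ∃ n : ℕ, ρ w ^ (p ^ n) = 1) :
    ∀ w ∈ Pw, ρ w = 1 := by
  classical
  let f : Pw →* (Module.End k V)ˣ := (ρ.comp Pw.subtype).toHomUnits
  have hf : ∀ w : Pw, ((f w : (Module.End k V)ˣ) : Module.End k V) = ρ w := fun w => rfl
  let U : Subgroup (Module.End k V)ˣ := f.range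
  have hU : IsPGroup p U := by
    rintro ⟨u, w, rfl⟩
    obtain ⟨n, hn⟩ := hPw w w.2
    refine ⟨n, ?_⟩
    apply Subtype.ext
    apply Units.ext
    simpa [hf] using hn
  haveI : Finite V := Module.finite_of_finite k
  have hcard : p ∣ Nat.card V := by
    rw [Module.natCard_eq_pow_finrank (K := k), hV]
    exact dvd_pow (prime_dvd_card_field p) two_ne_zero
  have h0 : (0 : V) ∈ MulAction.fixedPoints U V := fun u => smul_zero u
  obtain ⟨v, hv, hv0⟩ := hU.exists_fixed_point_of_prime_dvd_card_of_fixed_point V hcard h0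
  have hvfix : ∀ w ∈ Pw, ρ w v = v := by
    intro w hw
    exact hv ⟨f ⟨w, hw⟩, ⟨w, hw⟩, rfl⟩
  let F : Submodule k V :=
    { carrier := {x | ∀ w ∈ Pw, ρ w x = x}
      add_mem' := fun {a b} ha hb w hw => by rw [map_add, ha w hw, hb w hw]
      zero_mem' := fun w _ => map_zero _
      smul_mem' := fun c x hx w hw => by rw [map_smul, hx w hw] }
  have hFstab : ∀ g, ∀ x ∈ F, ρ g x ∈ F := by
    intro g x hx w hw
    have h1 : g⁻¹ * w * g ∈ Pw := by
      have := hn.conj_mem w hw g⁻¹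
      rwa [inv_inv] at this
    have h2 := hx _ h1
    rw [map_mul, map_mul, Module.End.mul_apply, Module.End.mul_apply] at h2
    have h3 := congrArg (ρ g) h2
    rwa [rho_apply_inv] at h3
  rcases hirr F hFstab with h | h
  · exfalso
    have : v ∈ F := hvfix
    rw [h, Submodule.mem_bot] at this
    exact hv0 this.symm
  · intro w hw
    refine LinearMap.ext fun x => ?_
    have : x ∈ F := by rw [h]; exact Submodule.mem_top
    exact this w hw

end Wild

end Core

end Fermat.Agent.S56.H966.FLSS
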