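import Fermat.Agent.S56.FL.RamSpec
import Fermat.Agent.S56.H966.FLSS

/-!
# S56 / W-FLAT-SS, leaf `RCWildStatement` (helper966)

`rcWild : Fermat.Agent.S56.FL.RCWildStatement` — for an `RCDatum` with `p ∤ [Γ : ker ρ]`,
`ker ρ` is the wild inertia group `Γ₁ = ramGroup B Γ 1`.

Self-contained (Mathlib only).  Ingredients:
* `ramGroup_pow_mem`  (W1): `σ ∈ Γ_n`, `n ≥ 1` ⟹ `σ ^ p ∈ Γ_{n+1}`; hence `Γ₁` is a `p`-group;
* `mem_ramGroup_one_of_pow` (W2): `σ ∈ Γ₀`, `σ ^ p ∈ Γ₁` ⟹ `σ ∈ Γ₁`;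
* `commutator_mem_ramGroup_zero` (W3): commutators lie in `Γ₀` (finite residue field);
* `no_invariants`: an irreducible plane with split Frobenii has no trace-zero invariant
  endomorphism (`p` odd);
* the averaging argument.
-/

set_option autoImplicit false
set_option linter.unusedSectionVars false
set_option linter.unusedVariables false
set_option linter.style.haveILetI false

open Polynomial IsLocalRing

noncomputable section

namespace Fermat.Agent.S56.H966.RCW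

open Fermat.Agent.S56.FL

section Ram

variable {B Γ : Type} [CommRing B] [IsLocalRing B] [Group Γ] [MulSemiringAction Γ B]

theorem smul_mem_maximalIdeal (σ : Γ) {x : B} (hx : x ∈ maximalIdeal B) :
    σ • x ∈ maximalIdeal B := by
  rw [mem_maximalIdeal, mem_nonunits_iff] at hx ⊢
  intro h
  apply hx
  have := h.map (MulSemiringAction.toRingHom Γ B σ⁻¹)
  simpa using this

theorem smul_mem_maximalIdeal_pow (σ : Γ) (n : ℕ) {x : B} (hx : x ∈ maximalIdeal B ^ n) :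
    σ • x ∈ maximalIdeal B ^ n := by
  have h1 : Ideal.map (MulSemiringAction.toRingHom Γ B σ) (maximalIdeal B) ≤ maximalIdeal B := by
    rw [Ideal.map_le_iff_le_comap]
    intro y hy
    exact smul_mem_maximalIdeal σ hy
  have h2 : Ideal.map (MulSemiringAction.toRingHom Γ B σ) (maximalIdeal B ^ n) ≤
      maximalIdeal B ^ n := by
    rw [Ideal.map_pow]
    exact Ideal.pow_right_mono h1 n
  exact h2 (Ideal.mem_map_of_mem _ hx)

theorem ramGroup_antitone {m n : ℕ} (h : m ≤ n) : ramGroup B Γ n ≤ ramGroup B Γ m := by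
  intro σ hσ x
  exact Ideal.pow_le_pow_right (Nat.succ_le_succ h) (hσ x)

/-- `σ ∈ Γ_n`, `y ∈ 𝔪 ^ j` ⟹ `σ y - y ∈ 𝔪 ^ (n + j)`. -/
theorem smul_sub_mem_of_mem_pow {n : ℕ} {σ : Γ} (hσ : σ ∈ ramGroup B Γ n) (j : ℕ) {y : B}
    (hy : y ∈ maximalIdeal B ^ j) : σ • y - y ∈ maximalIdeal B ^ (n + j) := by
  induction j generalizing y with
  | zero => exact Ideal.pow_le_pow_right (Nat.le_succ n) (hσ y)
  | succ j ih =>
    rw [pow_succ] at hy
    refine Submodule.mul_induction_on hy ?_ ?_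
    · intro a ha b hb
      have h1 : σ • (a * b) - a * b = (σ • a - a) * (σ • b) + a * (σ • b - b) := by
        rw [smul_mul']; ring
      rw [h1]
      refine Ideal.add_mem _ ?_ ?_
      · have h2 := ih ha
        have h3 : σ • b ∈ maximalIdeal B := smul_mem_maximalIdeal σ hb
        have h4 := Ideal.mul_mem_mul h2 h3
        rwa [← pow_succ, add_assoc] at h4
      · have h2 : σ • b - b ∈ maximalIdeal B ^ (n + 1) := hσ b
        have h4 := Ideal.mul_mem_mul ha h2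
        rw [← pow_add] at h4
        have : j + (n + 1) = n + (j + 1) := by omega
        rwa [this] at h4
    · intro a b ha hb
      have : σ • (a + b) - (a + b) = (σ • a - a) + (σ • b - b) := by
        rw [smul_add]; ring
      rw [this]
      exact Ideal.add_mem _ ha hb

theorem pow_smul_sub_eq_sum (σ : Γ) (x : B) (m : ℕ) :
    σ ^ m • x - x = ∑ j ∈ Finset.range m, σ ^ j • (σ • x - x) := by
  induction m with
  | zero => simp
  | succ m ih =>
    rw [Finset.sum_range_succ, ← ih, smul_sub, ← mul_smul, ← pow_succ]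
    ring

/-- (W1) `σ ∈ Γ_n`, `n ≥ 1`, `p ∈ 𝔪` ⟹ `σ ^ p ∈ Γ_{n+1}`. -/
theorem ramGroup_pow_mem {p : ℕ} (hp : (p : B) ∈ maximalIdeal B) {n : ℕ} (hn : 1 ≤ n) {σ : Γ}
    (hσ : σ ∈ ramGroup B Γ n) : σ ^ p ∈ ramGroup B Γ (n + 1) := by
  intro x
  rw [pow_smul_sub_eq_sum]
  set δ := σ • x - x with hδ
  have hδm : δ ∈ maximalIdeal B ^ (n + 1) := hσ x
  have h1 : ∑ j ∈ Finset.range p, σ ^ j • δ =
      (p : B) * δ + ∑ j ∈ Finset.range p, (σ ^ j • δ - δ) := by
    rw [Finset.sum_sub_distrib, Finset.sum_const, Finset.card_range, nsmul_eq_mul]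
    ring
  rw [h1]
  refine Ideal.add_mem _ ?_ (Ideal.sum_mem _ fun j _ => ?_)
  · have := Ideal.mul_mem_mul hp hδm
    rwa [← pow_succ'] at this
  · have h2 := smul_sub_mem_of_mem_pow ((ramGroup B Γ n).pow_mem hσ j) (n + 1) hδm
    exact Ideal.pow_le_pow_right (by omega) h2

theorem ramGroup_pow_pow_mem {p : ℕ} (hp : (p : B) ∈ maximalIdeal B) {σ : Γ}
    (hσ : σ ∈ ramGroup B Γ 1) (j : ℕ) : σ ^ (p ^ j) ∈ ramGroup B Γ (1 + j) := by
  induction j with
  | zero => simpa using hσ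
  | succ j ih =>
    rw [pow_succ, pow_mul]
    have := ramGroup_pow_mem hp (by omega) ih
    rwa [add_assoc] at this


theorem mem_ramGroup_zero_iff {σ : Γ} :
    σ ∈ ramGroup B Γ 0 ↔ ∀ r : ResidueField B, σ • r = r := by
  constructor
  · intro h r
    obtain ⟨x, rfl⟩ := residue_surjective r
    rw [← ResidueField.residue_smul, ← sub_eq_zero, ← map_sub, residue_eq_zero_iff]
    simpa using h x
  · intro h x
    have := h (residue B x)
    rw [← ResidueField.residue_smul, ← sub_eq_zero, ← map_sub, residue_eq_zero_iff] at this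
    simpa using this

/-- (W3) commutators act trivially on a finite residue field. -/
theorem commutator_mem_ramGroup_zero [Finite (ResidueField B)] (g h : Γ) :
    g * h * g⁻¹ * h⁻¹ ∈ ramGroup B Γ 0 := by
  classical
  rw [mem_ramGroup_zero_iff]
  obtain ⟨u, hu⟩ := IsCyclic.exists_generator (α := (ResidueField B)ˣ)
  have hpow : ∀ x : ResidueField B, x ≠ 0 → ∃ n : ℕ, x = (u : ResidueField B) ^ n := by
    intro x hx
    have h1 : Units.mk0 x hx ∈ Submonoid.powers u := mem_powers_iff_mem_zpowers.mpr (hu _)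
    obtain ⟨n, hn⟩ := h1
    refine ⟨n, ?_⟩
    have := congrArg (fun y : (ResidueField B)ˣ => (y : ResidueField B)) hn
    simpa using this.symm
  have hu0 : (u : ResidueField B) ≠ 0 := u.ne_zero
  have hsm : ∀ σ : Γ, ∃ a : ℕ, σ • (u : ResidueField B) = (u : ResidueField B) ^ a := by
    intro σ
    apply hpow
    intro h0
    apply hu0
    have := congrArg (fun y => σ⁻¹ • y) h0
    simpa using this
  have hcomm : ∀ (σ τ : Γ) (x : ResidueField B), σ • τ • x = τ • σ • x := by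
    intro σ τ x
    by_cases hx : x = 0
    · subst hx; simp
    · obtain ⟨n, rfl⟩ := hpow x hx
      obtain ⟨a, ha⟩ := hsm σ
      obtain ⟨b, hb⟩ := hsm τ
      have h1 : σ • τ • ((u : ResidueField B) ^ n) = (((u : ResidueField B) ^ a) ^ b) ^ n := by
        rw [smul_pow', hb, smul_pow', smul_pow', ha]
      have h2 : τ • σ • ((u : ResidueField B) ^ n) = (((u : ResidueField B) ^ b) ^ a) ^ n := by
        rw [smul_pow', ha, smul_pow', smul_pow', hb]
      rw [h1, h2, ← pow_mul, ← pow_mul, ← pow_mul, ← pow_mul]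
      congr 1
      ring
  intro r
  rw [mul_smul, mul_smul, mul_smul, hcomm g h, smul_inv_smul, smul_inv_smul]

end Ram

section DVR

variable {B Γ : Type} [CommRing B] [IsDomain B] [IsDiscreteValuationRing B] [Group Γ]
  [MulSemiringAction Γ B]

theorem exists_ramGroup_eq_bot [Finite Γ] [FaithfulSMul Γ B] : ∃ N, ramGroup B Γ N = ⊥ := by
  classical
  haveI := Fintype.ofFinite Γ
  have h : ∀ σ : Γ, ∃ n, σ ≠ 1 → σ ∉ ramGroup B Γ n := by
    intro σ
    by_cases hσ : σ = 1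
    · exact ⟨0, fun h => (h hσ).elim⟩
    · obtain ⟨x, hx⟩ : ∃ x : B, σ • x ≠ x := by
        by_contra hcon
        push Not at hcon
        exact hσ (FaithfulSMul.eq_of_smul_eq_smul (M := Γ) (α := B)
          fun x => by rw [hcon, one_smul])
      have hne : σ • x - x ≠ 0 := sub_ne_zero.mpr hx
      have hK : (⨅ i, maximalIdeal B ^ i) = ⊥ :=
        Ideal.iInf_pow_eq_bot_of_isLocalRing _ (Ideal.IsMaximal.ne_top inferInstance)
      have : ∃ n, σ • x - x ∉ maximalIdeal B ^ n := by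
        by_contra hcon
        push Not at hcon
        have : σ • x - x ∈ (⨅ i, maximalIdeal B ^ i) := by
          rw [Submodule.mem_iInf]; exact hcon
        rw [hK] at this
        exact hne this
      obtain ⟨n, hn⟩ := this
      exact ⟨n, fun _ hmem => hn (Ideal.pow_le_pow_right (Nat.le_succ n) (hmem x))⟩
  choose f hf using h
  refine ⟨Finset.univ.sup f, ?_⟩
  rw [eq_bot_iff]
  intro σ hσ
  rw [Subgroup.mem_bot]
  by_contra hne
  exact hf σ hne (ramGroup_antitone (Finset.le_sup (Finset.mem_univ σ)) hσ)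

/-- (W1) the wild inertia group is a `p`-group. -/
theorem exists_pow_eq_one_of_mem_ramGroup_one [Finite Γ] [FaithfulSMul Γ B] {p : ℕ}
    (hp : (p : B) ∈ maximalIdeal B) {σ : Γ} (hσ : σ ∈ ramGroup B Γ 1) :
    ∃ j : ℕ, σ ^ (p ^ j) = 1 := by
  obtain ⟨N, hN⟩ := exists_ramGroup_eq_bot (B := B) (Γ := Γ)
  refine ⟨N, ?_⟩
  have h1 := ramGroup_pow_pow_mem hp hσ N
  have h2 := ramGroup_antitone (B := B) (Γ := Γ) (show N ≤ 1 + N by omega) h1
  rwa [hN, Subgroup.mem_bot] at h2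

/-- `a ≡ b mod 𝔪` ⟹ `a ^ p ≡ b ^ p mod 𝔪 ^ 2`. -/
theorem pow_sub_pow_mem_sq {p : ℕ} (hp : (p : B) ∈ maximalIdeal B) {a b : B}
    (hab : a - b ∈ maximalIdeal B) : a ^ p - b ^ p ∈ maximalIdeal B ^ 2 := by
  rw [← geom_sum₂_mul, pow_two]
  refine Ideal.mul_mem_mul ?_ hab
  rw [← residue_eq_zero_iff, map_sum]
  have hr : residue B a = residue B b := by
    rw [← sub_eq_zero, ← map_sub, residue_eq_zero_iff]; exact hab
  have h1 : ∀ i ∈ Finset.range p, residue B (a ^ i * b ^ (p - 1 - i)) = residue B b ^ (p - 1) := by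
    intro i hi
    rw [map_mul, map_pow, map_pow, hr, ← pow_add]
    congr 1
    have := Finset.mem_range.mp hi
    omega
  rw [Finset.sum_congr rfl h1, Finset.sum_const, Finset.card_range, nsmul_eq_mul]
  have : ((p : ℕ) : ResidueField B) = 0 := by
    have := (residue_eq_zero_iff (p : B)).mpr hp
    rwa [map_natCast] at this
  rw [this, zero_mul]

/-- `p`-th powers are fixed modulo `𝔪 ^ 2` by the inertia group. -/
theorem smul_pow_sub_mem_sq {p : ℕ} (hp : (p : B) ∈ maximalIdeal B) {σ : Γ}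
    (hσ : σ ∈ ramGroup B Γ 0) (y : B) : σ • (y ^ p) - y ^ p ∈ maximalIdeal B ^ 2 := by
  rw [smul_pow']
  exact pow_sub_pow_mem_sq hp (by simpa using hσ y)

/-- An inertia element fixing a uniformizer modulo `𝔪 ^ 2` is wild (finite residue field). -/
theorem mem_ramGroup_one_of_uniformizer [Finite (ResidueField B)] {p : ℕ} [hpp : Fact p.Prime]
    (hp : (p : B) ∈ maximalIdeal B) {ϖ : B} (hϖ : Irreducible ϖ) {σ : Γ}
    (hσ : σ ∈ ramGroup B Γ 0) (h : σ • ϖ - ϖ ∈ maximalIdeal B ^ 2) : σ ∈ ramGroup B Γ 1 := by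
  have h0 : ((p : ℕ) : ResidueField B) = 0 := by
    have := (residue_eq_zero_iff (p : B)).mpr hp
    rwa [map_natCast] at this
  haveI : CharP (ResidueField B) p := (CharP.charP_iff_prime_eq_zero hpp.out).mpr h0
  intro x
  obtain ⟨r, hr⟩ := surjective_frobenius (ResidueField B) p (residue B x)
  obtain ⟨y, rfl⟩ := residue_surjective r
  have hxy : x - y ^ p ∈ maximalIdeal B := by
    rw [← residue_eq_zero_iff, map_sub, map_pow, sub_eq_zero]
    exact hr.symm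
  rw [hϖ.maximalIdeal_eq, Ideal.mem_span_singleton] at hxy
  obtain ⟨b, hb⟩ := hxy
  have hx : x = y ^ p + ϖ * b := by rw [← hb]; ring
  have h1 : σ • x - x = (σ • (y ^ p) - y ^ p) + ((σ • ϖ - ϖ) * (σ • b) + ϖ * (σ • b - b)) := by
    rw [hx, smul_add, smul_mul']; ring
  have hϖm : ϖ ∈ maximalIdeal B := by
    rw [hϖ.maximalIdeal_eq]; exact Ideal.mem_span_singleton_self ϖ
  show σ • x - x ∈ maximalIdeal B ^ (1 + 1)
  rw [h1]
  refine Ideal.add_mem _ (smul_pow_sub_mem_sq hp hσ y) (Ideal.add_mem _ ?_ ?_)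
  · exact Ideal.mul_mem_right _ _ h
  · rw [show (1 + 1 : ℕ) = 2 from rfl, pow_two]
    exact Ideal.mul_mem_mul hϖm (by simpa using hσ b)

/-- (W2) `σ ∈ Γ₀`, `σ ^ p ∈ Γ₁` ⟹ `σ ∈ Γ₁`. -/
theorem mem_ramGroup_one_of_pow [Finite (ResidueField B)] {p : ℕ} [hpp : Fact p.Prime]
    (hp : (p : B) ∈ maximalIdeal B) {σ : Γ} (hσ : σ ∈ ramGroup B Γ 0)
    (hσp : σ ^ p ∈ ramGroup B Γ 1) : σ ∈ ramGroup B Γ 1 := by
  have h0 : ((p : ℕ) : ResidueField B) = 0 := by
    have := (residue_eq_zero_iff (p : B)).mpr hp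
    rwa [map_natCast] at this
  haveI : CharP (ResidueField B) p := (CharP.charP_iff_prime_eq_zero hpp.out).mpr h0
  obtain ⟨ϖ, hϖ⟩ := IsDiscreteValuationRing.exists_irreducible B
  have hϖ0 : ϖ ≠ 0 := hϖ.ne_zero
  have hϖm : ϖ ∈ maximalIdeal B := by
    rw [hϖ.maximalIdeal_eq]; exact Ideal.mem_span_singleton_self ϖ
  have hm : maximalIdeal B = Ideal.span {ϖ} := hϖ.maximalIdeal_eq
  -- `σ ϖ = u ϖ`
  have h1 : σ • ϖ ∈ maximalIdeal B := smul_mem_maximalIdeal σ hϖm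
  rw [hm, Ideal.mem_span_singleton] at h1
  obtain ⟨u, hu⟩ := h1
  -- `σ ^ j ϖ = u_j ϖ`, `u_j ≡ u ^ j`
  have h2 : ∀ j : ℕ, ∃ w : B, σ ^ j • ϖ = ϖ * w ∧ residue B w = residue B u ^ j := by
    intro j
    induction j with
    | zero => exact ⟨1, by simp, by simp⟩
    | succ j ih =>
      obtain ⟨w, hw, hwr⟩ := ih
      refine ⟨σ ^ j • u * w, ?_, ?_⟩
      · rw [pow_succ, mul_smul, hu, smul_mul', hw]; ring
      · rw [map_mul, hwr, ResidueField.residue_smul,
          (mem_ramGroup_zero_iff.mp ((ramGroup B Γ 0).pow_mem hσ j)) _, pow_succ, mul_comm]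
  obtain ⟨w, hw, hwr⟩ := h2 p
  have h3 : σ ^ p • ϖ - ϖ ∈ maximalIdeal B ^ 2 := hσp ϖ
  rw [hw, hm, Ideal.span_singleton_pow, Ideal.mem_span_singleton] at h3
  have h4 : ϖ * w - ϖ = ϖ * (w - 1) := by ring
  rw [h4, pow_two] at h3
  have h5 : ϖ ∣ w - 1 := (mul_dvd_mul_iff_left hϖ0).mp h3
  have h6 : residue B w = 1 := by
    have : w - 1 ∈ maximalIdeal B := by rw [hm, Ideal.mem_span_singleton]; exact h5
    rw [← residue_eq_zero_iff, map_sub, map_one, sub_eq_zero] at this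
    exact this
  rw [hwr] at h6
  have h7 : residue B u = 1 := by
    apply frobenius_inj (ResidueField B) p
    rw [frobenius_def, frobenius_def, h6, one_pow]
  have h8 : u - 1 ∈ maximalIdeal B := by
    rw [← residue_eq_zero_iff, map_sub, map_one, h7, sub_self]
  refine mem_ramGroup_one_of_uniformizer hp hϖ hσ ?_
  have h9 : σ • ϖ - ϖ = ϖ * (u - 1) := by rw [hu]; ring
  rw [h9, pow_two]
  exact Ideal.mul_mem_mul hϖm h8

end DVR


section LinAlg

open Fermat.Agent.S56.H966.FLSS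

variable {k : Type} [Field k] {V : Type} [AddCommGroup V] [Module k V] [Module.Finite k V]
variable {Γ : Type} [Group Γ]

/-- An irreducible plane all of whose operators have their eigenvalues in `k` has no nonzero
trace-zero invariant endomorphism (characteristic `≠ 2`). -/
theorem no_invariants (h2 : (2 : k) ≠ 0) (hV : Module.finrank k V = 2)
    (ρ : Γ →* Module.End k V)
    (hirr : ∀ U : Submodule k V, (∀ (σ : Γ), ∀ x ∈ U, ρ σ x ∈ U) → U = ⊥ ∨ U = ⊤)
    (hsplit : ∀ σ : Γ, ∃ α β : k, LinearMap.charpoly (ρ σ) = (X - C α) * (X - C β))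
    (m : Module.End k V) (htr : LinearMap.trace k V m = 0)
    (hm : ∀ σ, ρ σ * m = m * ρ σ) : m = 0 := by
  by_cases hev : ∃ (v : V) (c : k), v ≠ 0 ∧ m v = c • v
  · obtain ⟨v, c, hv, hmv⟩ := hev
    let E : Submodule k V := LinearMap.ker (m - c • (1 : Module.End k V))
    have hEmem : ∀ x, x ∈ E ↔ m x = c • x := by
      intro x
      rw [LinearMap.mem_ker, LinearMap.sub_apply, LinearMap.smul_apply, Module.End.one_apply,
        sub_eq_zero]
    have hE : ∀ σ, ∀ x ∈ E, ρ σ x ∈ E := by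
      intro σ x hx
      rw [hEmem] at hx ⊢
      rw [← Module.End.mul_apply, ← hm σ, Module.End.mul_apply, hx, map_smul]
    rcases hirr E hE with h | h
    · exfalso
      have : v ∈ E := (hEmem v).mpr hmv
      rw [h, Submodule.mem_bot] at this
      exact hv this
    · have hmc : m = c • (1 : Module.End k V) := by
        refine LinearMap.ext fun x => ?_
        have : x ∈ E := by rw [h]; exact Submodule.mem_top
        rw [LinearMap.smul_apply, Module.End.one_apply]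
        exact (hEmem x).mp this
      have h3 : c * 2 = 0 := by
        have := htr
        rw [hmc, map_smul, LinearMap.trace_one, hV, smul_eq_mul] at this
        simpa using this
      have hc : c = 0 := (mul_eq_zero.mp h3).resolve_right h2
      rw [hmc, hc, zero_smul]
  · exfalso
    have hscal : ∀ σ, ∃ α : k, ∀ v, ρ σ v = α • v := by
      intro σ
      obtain ⟨v, α, hv, hσv⟩ := exists_eigenvector hV (ρ σ) (hsplit σ)
      have hmv : ρ σ (m v) = α • m v := by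
        rw [← Module.End.mul_apply, hm σ, Module.End.mul_apply, hσv, map_smul]
      have hli : LinearIndependent k ![v, m v] :=
        linearIndependent_of_not_smul hv (fun c hc => hev ⟨v, c, hv, hc⟩)
      refine ⟨α, fun w => ?_⟩
      obtain ⟨x, y, rfl⟩ := exists_coord hV hli w
      rw [map_add, map_smul, map_smul, hσv, hmv, smul_add, smul_comm x α, smul_comm y α]
    obtain ⟨v, hv⟩ : ∃ v : V, v ≠ 0 := by
      haveI : Nontrivial V := Module.nontrivial_of_finrank_pos (R := k) (by rw [hV]; norm_num)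
      exact exists_ne 0
    exact no_common_eigenvector hV hirr hv (fun σ => let ⟨α, h⟩ := hscal σ; ⟨α, h v⟩)

end LinAlg


section Coc

variable {k : Type} [Field k] {V : Type} [AddCommGroup V] [Module k V]
variable {Γ : Type} [Group Γ] (ρ : Γ →* Module.End k V) (c : Γ → Module.End k V)

theorem coc_one (hc : ∀ σ τ, c (σ * τ) = c σ + ρ σ * c τ * ρ σ⁻¹) : c 1 = 0 := by
  have h := hc 1 1
  rw [mul_one, inv_one, map_one, one_mul, mul_one] at h
  have : c 1 + c 1 = c 1 + 0 := by rw [add_zero]; exact h.symm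
  exact add_left_cancel this

theorem coc_mul_ker (hc : ∀ σ τ, c (σ * τ) = c σ + ρ σ * c τ * ρ σ⁻¹) {w : Γ} (hw : ρ w = 1)
    (w' : Γ) : c (w * w') = c w + c w' := by
  rw [hc, map_inv_eq_one ρ hw, hw, one_mul, mul_one]
where
  map_inv_eq_one (ρ : Γ →* Module.End k V) {w : Γ} (hw : ρ w = 1) : ρ w⁻¹ = 1 := by
    have h := map_mul ρ w⁻¹ w
    rw [inv_mul_cancel, map_one, hw, mul_one] at h
    exact h.symm

theorem rho_inv_eq_one {w : Γ} (hw : ρ w = 1) : ρ w⁻¹ = 1 := by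
  have h := map_mul ρ w⁻¹ w
  rw [inv_mul_cancel, map_one, hw, mul_one] at h
  exact h.symm

theorem coc_inv_ker (hc : ∀ σ τ, c (σ * τ) = c σ + ρ σ * c τ * ρ σ⁻¹) {w : Γ} (hw : ρ w = 1) :
    c w⁻¹ = - c w := by
  have h := coc_mul_ker ρ c hc hw w⁻¹
  rw [mul_inv_cancel, coc_one ρ c hc] at h
  exact eq_neg_of_add_eq_zero_right h.symm

theorem coc_pow_ker (hc : ∀ σ τ, c (σ * τ) = c σ + ρ σ * c τ * ρ σ⁻¹) {w : Γ} (hw : ρ w = 1)
    (n : ℕ) : c (w ^ n) = n • c w := by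
  induction n with
  | zero => rw [pow_zero, zero_smul]; exact coc_one ρ c hc
  | succ n ih => rw [pow_succ', coc_mul_ker ρ c hc hw, ih, succ_nsmul, add_comm]

theorem coc_conj (hc : ∀ σ τ, c (σ * τ) = c σ + ρ σ * c τ * ρ σ⁻¹) {w : Γ} (hw : ρ w = 1)
    (g : Γ) : c (g * w * g⁻¹) = ρ g * c w * ρ g⁻¹ := by
  have h1 : c (g * g⁻¹) = c g + ρ g * c g⁻¹ * ρ g⁻¹ := hc g g⁻¹
  rw [mul_inv_cancel, coc_one ρ c hc] at h1
  rw [mul_assoc, hc g (w * g⁻¹), coc_mul_ker ρ c hc hw, mul_add, add_mul, ← add_assoc,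
    add_right_comm, ← h1, zero_add]

end Coc

section Avg

open Fermat.Agent.S56.H966.FLSS

variable {k : Type} [Field k] {V : Type} [AddCommGroup V] [Module k V] [Module.Finite k V]
variable {Γ : Type} [Group Γ] [Finite Γ]

/-- **Averaging.**  If all commutators `g w g⁻¹ w⁻¹` (`w ∈ ker ρ`) lie in a subgroup `H`, then
`w ^ [Γ : ker ρ] ∈ H` for every `w ∈ ker ρ`. -/
theorem pow_index_mem_of_commutator_mem (h2 : (2 : k) ≠ 0) (hV : Module.finrank k V = 2)
    (ρ : Γ →* Module.End k V)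
    (hirr : ∀ U : Submodule k V, (∀ (σ : Γ), ∀ x ∈ U, ρ σ x ∈ U) → U = ⊥ ∨ U = ⊤)
    (hsplit : ∀ σ : Γ, ∃ α β : k, LinearMap.charpoly (ρ σ) = (X - C α) * (X - C β))
    (c₁ c₂ : Γ → Module.End k V)
    (hc₁ : ∀ σ τ, c₁ (σ * τ) = c₁ σ + ρ σ * c₁ τ * ρ σ⁻¹)
    (hc₂ : ∀ σ τ, c₂ (σ * τ) = c₂ σ + ρ σ * c₂ τ * ρ σ⁻¹)
    (htr₁ : ∀ σ, LinearMap.trace k V (c₁ σ) = 0)
    (htr₂ : ∀ σ, LinearMap.trace k V (c₂ σ) = 0)
    (hfaith : ∀ σ, ρ σ = 1 → c₁ σ = 0 → c₂ σ = 0 → σ = 1)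
    (H : Subgroup Γ) (hH : ∀ g w : Γ, ρ w = 1 → g * w * g⁻¹ * w⁻¹ ∈ H)
    {w : Γ} (hw : ρ w = 1) : w ^ ρ.ker.index ∈ H := by
  classical
  haveI : Fintype (Γ ⧸ ρ.ker) := Fintype.ofFinite _
  set N := ρ.ker.index with hN
  have hcard : Fintype.card (Γ ⧸ ρ.ker) = N := by
    rw [hN, Subgroup.index_eq_card, Nat.card_eq_fintype_card]
  let ρb : Γ ⧸ ρ.ker →* Module.End k V := QuotientGroup.lift ρ.ker ρ le_rfl
  have hρb : ∀ g : Γ, ρb (QuotientGroup.mk g) = ρ g := fun g => QuotientGroup.lift_mk _ _ g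
  have hρb_inv : ∀ δ : Γ ⧸ ρ.ker, ρb δ * ρb δ⁻¹ = 1 := fun δ => by
    rw [← map_mul, mul_inv_cancel, map_one]
  have hρb_inv' : ∀ δ : Γ ⧸ ρ.ker, ρb δ⁻¹ * ρb δ = 1 := fun δ => by
    rw [← map_mul, inv_mul_cancel, map_one]
  -- the average of an endomorphism
  let avg : Module.End k V → Module.End k V := fun z => ∑ δ : Γ ⧸ ρ.ker, ρb δ * z * ρb δ⁻¹
  have havg_zero : ∀ z, LinearMap.trace k V z = 0 → avg z = 0 := by
    intro z hz
    apply no_invariants h2 hV ρ hirr hsplit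
    · show LinearMap.trace k V (∑ δ : Γ ⧸ ρ.ker, ρb δ * z * ρb δ⁻¹) = 0
      rw [map_sum]
      refine Finset.sum_eq_zero fun δ _ => ?_
      rw [LinearMap.trace_mul_comm, ← mul_assoc, hρb_inv', one_mul, hz]
    · intro σ
      have h1 : ρ σ * avg z * ρ σ⁻¹ = avg z := by
        show ρ σ * (∑ δ : Γ ⧸ ρ.ker, ρb δ * z * ρb δ⁻¹) * ρ σ⁻¹ =
          ∑ δ : Γ ⧸ ρ.ker, ρb δ * z * ρb δ⁻¹
        rw [Finset.mul_sum, Finset.sum_mul]
        rw [← Equiv.sum_comp (Equiv.mulLeft (QuotientGroup.mk σ : Γ ⧸ ρ.ker))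
          (fun δ => ρb δ * z * ρb δ⁻¹)]
        refine Finset.sum_congr rfl fun δ _ => ?_
        simp only [Equiv.coe_mulLeft, mul_inv_rev, map_mul, hρb, ← QuotientGroup.mk_inv]
        simp only [mul_assoc]
      have h3 : ρ σ⁻¹ * ρ σ = 1 := by rw [← map_mul, inv_mul_cancel, map_one]
      calc ρ σ * avg z = ρ σ * avg z * (ρ σ⁻¹ * ρ σ) := by rw [h3, mul_one]
        _ = (ρ σ * avg z * ρ σ⁻¹) * ρ σ := by simp only [mul_assoc]
        _ = avg z * ρ σ := by rw [h1]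
  -- representatives and commutators
  let g : Γ ⧸ ρ.ker → Γ := fun δ => δ.out
  have hg : ∀ δ, ρ (g δ) = ρb δ := fun δ => by
    rw [← hρb, QuotientGroup.out_eq']
  have hginv : ∀ δ, ρ (g δ)⁻¹ = ρb δ⁻¹ := fun δ => by
    rw [← hρb, QuotientGroup.mk_inv, QuotientGroup.out_eq']
  let u : Γ ⧸ ρ.ker → Γ := fun δ => g δ * w * (g δ)⁻¹ * w⁻¹
  have hwinv : ρ w⁻¹ = 1 := rho_inv_eq_one ρ hw
  have hu_ker : ∀ δ, ρ (u δ) = 1 := fun δ => by
    show ρ (g δ * w * (g δ)⁻¹ * w⁻¹) = 1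
    rw [map_mul, map_mul, map_mul, hw, hwinv, mul_one, mul_one, ← map_mul, mul_inv_cancel,
      map_one]
  have hu_H : ∀ δ, u δ ∈ H := fun δ => hH (g δ) w hw
  have hkey : ∀ (c : Γ → Module.End k V), (∀ σ τ, c (σ * τ) = c σ + ρ σ * c τ * ρ σ⁻¹) →
      (∀ σ, LinearMap.trace k V (c σ) = 0) →
      ∑ δ : Γ ⧸ ρ.ker, c (u δ) + N • c w = 0 := by
    intro c hc htr
    have h1 := havg_zero (c w) (htr w)
    have h2 : ∀ δ : Γ ⧸ ρ.ker, ρb δ * c w * ρb δ⁻¹ = c (u δ) + c w := by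
      intro δ
      rw [← hg, ← hginv, ← coc_conj ρ c hc hw (g δ), ← coc_mul_ker ρ c hc (hu_ker δ)]
      congr 1
      show g δ * w * (g δ)⁻¹ = g δ * w * (g δ)⁻¹ * w⁻¹ * w
      rw [inv_mul_cancel_right]
    have h3 : avg (c w) = ∑ δ : Γ ⧸ ρ.ker, (c (u δ) + c w) := Finset.sum_congr rfl fun δ _ => h2 δ
    rw [h3, Finset.sum_add_distrib, Finset.sum_const, Finset.card_univ, hcard] at h1
    exact h1
  -- the additive subgroup of values on `ker ρ ⊓ H`
  let A₀ : AddSubgroup (Module.End k V × Module.End k V) :=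
    { carrier := {z | ∃ x : Γ, ρ x = 1 ∧ x ∈ H ∧ (c₁ x, c₂ x) = z}
      add_mem' := by
        rintro _ _ ⟨x, hx, hxH, rfl⟩ ⟨y, hy, hyH, rfl⟩
        refine ⟨x * y, by rw [map_mul, hx, hy, one_mul], H.mul_mem hxH hyH, ?_⟩
        rw [coc_mul_ker ρ c₁ hc₁ hx, coc_mul_ker ρ c₂ hc₂ hx]
        rfl
      zero_mem' := ⟨1, map_one ρ, H.one_mem, by rw [coc_one ρ c₁ hc₁, coc_one ρ c₂ hc₂]; rfl⟩
      neg_mem' := by
        rintro _ ⟨x, hx, hxH, rfl⟩
        refine ⟨x⁻¹, rho_inv_eq_one ρ hx, H.inv_mem hxH, ?_⟩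
        rw [coc_inv_ker ρ c₁ hc₁ hx, coc_inv_ker ρ c₂ hc₂ hx]
        rfl }
  have hsum : ∑ δ : Γ ⧸ ρ.ker, (c₁ (u δ), c₂ (u δ)) ∈ A₀ :=
    AddSubgroup.sum_mem _ fun δ _ => ⟨u δ, hu_ker δ, hu_H δ, rfl⟩
  have hsum' : ∑ δ : Γ ⧸ ρ.ker, (c₁ (u δ), c₂ (u δ)) = - (N • c₁ w, N • c₂ w) := by
    rw [eq_neg_iff_add_eq_zero]
    ext : 1
    · simp only [Prod.fst_add, Prod.fst_sum, Prod.fst_zero]
      exact hkey c₁ hc₁ htr₁
    · simp only [Prod.snd_add, Prod.snd_sum, Prod.snd_zero]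
      exact hkey c₂ hc₂ htr₂
  rw [hsum'] at hsum
  obtain ⟨x, hx, hxH, hxe⟩ := A₀.neg_mem hsum
  rw [neg_neg] at hxe
  -- `x = w ^ N`
  have hwN : ρ (w ^ N) = 1 := by rw [map_pow, hw, one_pow]
  have e1 : c₁ x = N • c₁ w := congrArg Prod.fst hxe
  have e2 : c₂ x = N • c₂ w := congrArg Prod.snd hxe
  have hx1 : c₁ (x * (w ^ N)⁻¹) = 0 := by
    rw [coc_mul_ker ρ c₁ hc₁ hx, coc_inv_ker ρ c₁ hc₁ hwN, coc_pow_ker ρ c₁ hc₁ hw, e1]
    exact add_neg_cancel _
  have hx2 : c₂ (x * (w ^ N)⁻¹) = 0 := by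
    rw [coc_mul_ker ρ c₂ hc₂ hx, coc_inv_ker ρ c₂ hc₂ hwN, coc_pow_ker ρ c₂ hc₂ hw, e2]
    exact add_neg_cancel _
  have hx3 : x * (w ^ N)⁻¹ = 1 :=
    hfaith _ (by rw [map_mul, hx, rho_inv_eq_one ρ hwN, one_mul]) hx1 hx2
  have : x = w ^ N := by
    rw [mul_inv_eq_one] at hx3
    exact hx3
  rwa [← this]

end Avg


section Final

/-- If `x ^ a = 1` and `x ^ b ∈ H` with `a`, `b` coprime, then `x ∈ H`. -/
theorem mem_of_pow_mem_of_coprime {G : Type} [Group G] (H : Subgroup G) {x : G} {a b : ℕ}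
    (hab : Nat.Coprime a b) (ha : x ^ a = 1) (hb : x ^ b ∈ H) : x ∈ H := by
  have h := Nat.gcd_eq_gcd_ab a b
  rw [hab.gcd_eq_one] at h
  have hx : x = (x ^ b) ^ (Nat.gcdB a b) := by
    calc x = x ^ (((1 : ℕ) : ℤ)) := by simp
      _ = x ^ ((a : ℤ) * Nat.gcdA a b + (b : ℤ) * Nat.gcdB a b) := by rw [h]
      _ = (x ^ a) ^ (Nat.gcdA a b) * (x ^ b) ^ (Nat.gcdB a b) := by
          rw [zpow_add, zpow_mul, zpow_mul, zpow_natCast, zpow_natCast]
      _ = (x ^ b) ^ (Nat.gcdB a b) := by rw [ha, one_zpow, one_mul]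
  rw [hx]
  exact H.zpow_mem hb _

/-- **RCWild**: for an `RCDatum` with `p ∤ [Γ : ker ρ]`, `ker ρ` is the wild inertia group. -/
theorem rcWild : RCWildStatement := by
  intro d hT σ
  haveI : Fact d.p.Prime := ⟨d.hp⟩
  have hpA : (d.p : d.A) ∈ maximalIdeal d.A := by
    rw [d.hA]; exact Ideal.mem_span_singleton_self _
  have hpB : (d.p : d.B) ∈ maximalIdeal d.B := by
    rw [mem_maximalIdeal, mem_nonunits_iff] at hpA ⊢
    intro h
    apply hpA
    have h' : IsUnit (algebraMap d.A d.B (d.p : d.A)) := by rwa [map_natCast]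
    exact (isUnit_map_iff (algebraMap d.A d.B) _).mp h'
  haveI : Finite (ResidueField d.A) :=
    Nat.finite_of_card_ne_zero (by rw [d.hκ]; exact d.hp.ne_zero)
  haveI : Finite (ResidueField d.B) := ResidueField.finite_of_finite (R := d.A) inferInstance
  haveI : CharP d.k d.p := d.hchar
  have h2 : (2 : d.k) ≠ 0 := by
    intro h
    have h' : ((2 : ℕ) : d.k) = 0 := by exact_mod_cast h
    have := (CharP.cast_eq_zero_iff d.k d.p 2).mp h'
    exact d.hp2 ((Nat.prime_dvd_prime_iff_eq d.hp Nat.prime_two).mp this)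
  have hcop : Nat.Coprime d.p d.ρ.ker.index := (Nat.Prime.coprime_iff_not_dvd d.hp).mpr hT
  constructor
  · intro hσ
    have h1 : σ ^ d.ρ.ker.index ∈ ramGroup d.B d.Γ 0 :=
      pow_index_mem_of_commutator_mem h2 d.hV d.ρ d.hirr d.hsplit d.c₁ d.c₂ d.hc₁ d.hc₂
        d.htr₁ d.htr₂ d.hfaith _ (fun g w _ => commutator_mem_ramGroup_zero g w) hσ
    have hpz : ∀ z : Module.End d.k d.V, d.p • z = 0 := by
      intro z
      rw [← Nat.cast_smul_eq_nsmul d.k, CharP.cast_eq_zero, zero_smul]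
    have hσp : σ ^ d.p = 1 :=
      d.hfaith _ (by rw [map_pow, hσ, one_pow])
        (by rw [coc_pow_ker d.ρ d.c₁ d.hc₁ hσ, hpz])
        (by rw [coc_pow_ker d.ρ d.c₂ d.hc₂ hσ, hpz])
    have hσ0 : σ ∈ ramGroup d.B d.Γ 0 := mem_of_pow_mem_of_coprime _ hcop hσp h1
    exact mem_ramGroup_one_of_pow hpB hσ0 (by rw [hσp]; exact Subgroup.one_mem _)
  · intro hσ
    obtain ⟨j, hj⟩ := exists_pow_eq_one_of_mem_ramGroup_one hpB hσ
    have h3 : σ ^ d.ρ.ker.index ∈ d.ρ.ker := by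
      rw [← QuotientGroup.eq_one_iff, QuotientGroup.mk_pow, Subgroup.index_eq_card]
      exact pow_card_eq_one'
    have h4 : σ ∈ d.ρ.ker := mem_of_pow_mem_of_coprime _ (Nat.Coprime.pow_left j hcop) hj h3
    exact MonoidHom.mem_ker.mp h4

end Final

end Fermat.Agent.S56.H966.RCW

end
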