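import Fermat.Agent.S56.FL.RamLemSpec
import Fermat.Agent.S56.H966.RCWild

/-!
# S56 / W-FLAT-SS, FL-RAM leaves `RLWildStatement`, `RLCommStatement` (helper966)

Verbatim adapters on `H966/RCWild.lean`:
* `rlWild : FL.RLWildStatement` — the wild inertia group `Γ₁` is a `p`-group;
* `rlComm : FL.RLCommStatement` — commutators lie in the inertia group `Γ₀`.
Also `natCast_mem_maximalIdeal`, `finite_residueField` for an `RCDatum`.
-/

set_option autoImplicit false
set_option linter.unusedSectionVars false
set_option linter.unusedVariables false
set_option linter.style.haveILetI false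

open Polynomial IsLocalRing

noncomputable section

namespace Fermat.Agent.S56.H966.RCW

open Fermat.Agent.S56.FL

/-- `p` lies in the maximal ideal of `B`. -/
theorem natCast_mem_maximalIdeal (d : RCDatum) : (d.p : d.B) ∈ maximalIdeal d.B := by
  have hpA : (d.p : d.A) ∈ maximalIdeal d.A := by
    rw [d.hA]; exact Ideal.mem_span_singleton_self _
  rw [mem_maximalIdeal, mem_nonunits_iff] at hpA ⊢
  intro h
  apply hpA
  have h' : IsUnit (algebraMap d.A d.B (d.p : d.A)) := by rwa [map_natCast]
  exact (isUnit_map_iff (algebraMap d.A d.B) _).mp h'

/-- The residue field of `B` is finite. -/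
theorem finite_residueField (d : RCDatum) : Finite (ResidueField d.B) := by
  haveI : Finite (ResidueField d.A) :=
    Nat.finite_of_card_ne_zero (by rw [d.hκ]; exact d.hp.ne_zero)
  exact ResidueField.finite_of_finite (R := d.A) inferInstance

/-- (RL-A) the wild inertia group is a `p`-group. -/
theorem rlWild : RLWildStatement := by
  intro d
  rintro ⟨σ, hσ⟩
  obtain ⟨j, hj⟩ := exists_pow_eq_one_of_mem_ramGroup_one (natCast_mem_maximalIdeal d) hσ
  exact ⟨j, Subtype.ext (by simpa using hj)⟩

/-- (RL-B) commutators lie in the inertia group. -/
theorem rlComm : RLCommStatement := by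
  intro d g h
  haveI := finite_residueField d
  exact commutator_mem_ramGroup_zero g h

end Fermat.Agent.S56.H966.RCW

end
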