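/-
S56 helper (helper966), piece TWP (2nd owner): the twisted adjoint action as a group action,
cocycle calculus, and TWP2 = local triviality does not depend on the valuation subring over `q`.
-/
import Fermat.Agent.S56.Spec
import Fermat.Agent.Lib.Cheb.H476.FrobConj

set_option autoImplicit false
set_option linter.style.haveILetI false

open scoped Pointwise

noncomputable section

namespace Fermat.Agent.S56.H966

open Fermat.Agent.S56

/-! ### Cyclotomic exponents -/

section cyc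

variable (p : ℕ)

theorem isCycExp_one : IsCycExp p 1 1 := fun μ _ => by simp

theorem isCycExp_mul {g h : GQ} {a b : ℕ} (hg : IsCycExp p g a) (hh : IsCycExp p h b) :
    IsCycExp p (g * h) (a * b) := by
  intro μ hμ
  rw [AlgEquiv.mul_apply, hh μ hμ, map_pow, hg μ hμ, ← pow_mul]

/-- A primitive `p`-th root of unity in `ℚ̄`. -/
theorem exists_primitiveRoot_Qb (N : ℕ) (hN : N ≠ 0) : ∃ ζ : Qb, IsPrimitiveRoot ζ N := by
  haveI : NeZero (N : ℚ) := ⟨by exact_mod_cast hN⟩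
  exact HasEnoughRootsOfUnity.exists_primitiveRoot Qb N

theorem exists_isCycExp (hp : p ≠ 0) (g : GQ) : ∃ a, IsCycExp p g a := by
  haveI : NeZero p := ⟨hp⟩
  obtain ⟨ζ, hζ⟩ := exists_primitiveRoot_Qb p hp
  have hgζ : (g ζ) ^ p = 1 := by rw [← map_pow, hζ.pow_eq_one, map_one]
  obtain ⟨a, -, ha⟩ := hζ.eq_pow_of_pow_eq_one hgζ
  refine ⟨a, fun μ hμ => ?_⟩
  obtain ⟨i, -, rfl⟩ := hζ.eq_pow_of_pow_eq_one hμ
  rw [map_pow, ← ha, ← pow_mul, ← pow_mul, mul_comm]

theorem isCycExp_cast_eq {k : Type} [Field k] [CharP k p] (hp : p ≠ 0) {g : GQ} {a b : ℕ}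
    (ha : IsCycExp p g a) (hb : IsCycExp p g b) : (a : k) = (b : k) := by
  obtain ⟨ζ, hζ⟩ := exists_primitiveRoot_Qb p hp
  have h1 : ζ ^ a = ζ ^ b := by rw [← ha ζ hζ.pow_eq_one, hb ζ hζ.pow_eq_one]
  have hfin : IsOfFinOrder ζ := isOfFinOrder_iff_pow_eq_one.mpr ⟨p, Nat.pos_of_ne_zero hp, hζ.pow_eq_one⟩
  rw [hfin.pow_eq_pow_iff_modEq, ← hζ.eq_orderOf] at h1
  exact (CharP.natCast_eq_natCast k p).mpr h1

end cyc

/-! ### The twisted adjoint action as an action of `G_ℚ` -/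

section action

variable {k : Type} [Field k] (ρbar : ResidualGaloisRep k) (p : ℕ)

/-- The value in `k` of the mod `p` cyclotomic character. -/
def chi (k : Type) [Field k] (p : ℕ) (g : GQ) : k :=
  open Classical in
  if h : ∃ a, IsCycExp p g a then ((Classical.choose h : ℕ) : k) else 0

theorem chi_eq [CharP k p] (hp : p ≠ 0) {g : GQ} {a : ℕ} (ha : IsCycExp p g a) :
    chi k p g = (a : k) := by
  have h : ∃ a, IsCycExp p g a := ⟨a, ha⟩
  unfold chi
  rw [dif_pos h]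
  exact isCycExp_cast_eq p hp (Classical.choose_spec h) ha

theorem chi_one [CharP k p] (hp : p ≠ 0) : chi k p 1 = 1 := by
  rw [chi_eq p hp (isCycExp_one p), Nat.cast_one]

theorem chi_mul [CharP k p] (hp : p ≠ 0) (g h : GQ) :
    chi k p (g * h) = chi k p g * chi k p h := by
  obtain ⟨a, ha⟩ := exists_isCycExp p hp g
  obtain ⟨b, hb⟩ := exists_isCycExp p hp h
  rw [chi_eq p hp (isCycExp_mul p ha hb), chi_eq p hp ha, chi_eq p hp hb, Nat.cast_mul]

/-- The twisted adjoint action `m ↦ χ(g) ρ̄(g) m ρ̄(g)⁻¹`. -/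
def T (g : GQ) (m : Module.End k ρbar.V) : Module.End k ρbar.V :=
  chi k p g • (ρbar.ρ g * m * ρbar.ρ g⁻¹)

theorem twAd_eq_T [CharP k p] (hp : p ≠ 0) {g : GQ} {a : ℕ} (ha : IsCycExp p g a)
    (m : Module.End k ρbar.V) : twAd ρbar g a m = T ρbar p g m := by
  unfold twAd T
  rw [chi_eq p hp ha]

theorem rho_mul_inv (g : GQ) : ρbar.ρ g * ρbar.ρ g⁻¹ = 1 := by
  rw [← map_mul, mul_inv_cancel, map_one]

theorem rho_inv_mul (g : GQ) : ρbar.ρ g⁻¹ * ρbar.ρ g = 1 := by
  rw [← map_mul, inv_mul_cancel, map_one]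

theorem T_one [CharP k p] (hp : p ≠ 0) (m : Module.End k ρbar.V) : T ρbar p 1 m = m := by
  unfold T
  rw [chi_one p hp, one_smul, inv_one, map_one, one_mul, mul_one]

theorem T_mul [CharP k p] (hp : p ≠ 0) (g h : GQ) (m : Module.End k ρbar.V) :
    T ρbar p (g * h) m = T ρbar p g (T ρbar p h m) := by
  unfold T
  rw [chi_mul p hp, mul_inv_rev, map_mul, map_mul, mul_smul_comm, smul_mul_assoc, smul_smul]
  simp only [mul_assoc]

theorem T_add (g : GQ) (m m' : Module.End k ρbar.V) :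
    T ρbar p g (m + m') = T ρbar p g m + T ρbar p g m' := by
  unfold T
  rw [mul_add, add_mul, smul_add]

theorem T_neg (g : GQ) (m : Module.End k ρbar.V) :
    T ρbar p g (-m) = -T ρbar p g m := by
  unfold T
  rw [mul_neg, neg_mul, smul_neg]

theorem T_sub (g : GQ) (m m' : Module.End k ρbar.V) :
    T ρbar p g (m - m') = T ρbar p g m - T ρbar p g m' := by
  rw [sub_eq_add_neg, T_add, T_neg, ← sub_eq_add_neg]

theorem T_smul (g : GQ) (a : k) (m : Module.End k ρbar.V) :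
    T ρbar p g (a • m) = a • T ρbar p g m := by
  unfold T
  rw [mul_smul_comm, smul_mul_assoc, smul_comm]

theorem trace_T (g : GQ) (m : Module.End k ρbar.V) :
    LinearMap.trace k ρbar.V (T ρbar p g m) = chi k p g * LinearMap.trace k ρbar.V m := by
  unfold T
  rw [map_smul, smul_eq_mul, LinearMap.trace_mul_comm, ← mul_assoc, rho_inv_mul, one_mul]

theorem T_inv_T [CharP k p] (hp : p ≠ 0) (g : GQ) (m : Module.End k ρbar.V) :
    T ρbar p g⁻¹ (T ρbar p g m) = m := by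
  rw [← T_mul ρbar p hp, inv_mul_cancel, T_one ρbar p hp]

/-! ### Cocycle calculus -/

variable {ρbar p}

theorem coc_mul [CharP k p] (hp : p ≠ 0) {c : GQ → Module.End k ρbar.V}
    (hc : IsTwCocycle ρbar p c) (g h : GQ) : c (g * h) = c g + T ρbar p g (c h) := by
  obtain ⟨a, ha⟩ := exists_isCycExp p hp g
  rw [hc.map_mul g h a ha, twAd_eq_T ρbar p hp ha]

theorem coc_one [CharP k p] (hp : p ≠ 0) {c : GQ → Module.End k ρbar.V}
    (hc : IsTwCocycle ρbar p c) : c 1 = 0 := by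
  have h := coc_mul hp hc 1 1
  rw [mul_one, T_one ρbar p hp] at h
  exact left_eq_add.mp h

theorem coc_inv [CharP k p] (hp : p ≠ 0) {c : GQ → Module.End k ρbar.V}
    (hc : IsTwCocycle ρbar p c) (g : GQ) : c g⁻¹ = -T ρbar p g⁻¹ (c g) := by
  have h := coc_mul hp hc g⁻¹ g
  rw [inv_mul_cancel, coc_one hp hc] at h
  exact eq_neg_of_add_eq_zero_left h.symm

theorem isTwCoboundaryOn_iff [CharP k p] (hp : p ≠ 0) (H : Subgroup GQ)
    (c : GQ → Module.End k ρbar.V) (m : Module.End k ρbar.V) :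
    IsTwCoboundaryOn ρbar p H c m ↔
      LinearMap.trace k ρbar.V m = 0 ∧ ∀ σ ∈ H, c σ = T ρbar p σ m - m := by
  constructor
  · rintro ⟨h0, h⟩
    refine ⟨h0, fun σ hσ => ?_⟩
    obtain ⟨a, ha⟩ := exists_isCycExp p hp σ
    rw [h σ hσ a ha, twAd_eq_T ρbar p hp ha]
  · rintro ⟨h0, h⟩
    refine ⟨h0, fun σ hσ a ha => ?_⟩
    rw [h σ hσ, twAd_eq_T ρbar p hp ha]

/-- **TWP2, conjugation step.**  If `c` is a coboundary on the decomposition group of `g • A`
then it is a coboundary on the decomposition group of `A`. -/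
theorem coboundaryOn_of_smul [CharP k p] (hp : p ≠ 0) {c : GQ → Module.End k ρbar.V}
    (hc : IsTwCocycle ρbar p c) (g : GQ) (A : ValuationSubring Qb) {m : Module.End k ρbar.V}
    (h : IsTwCoboundaryOn ρbar p ((g • A).decompositionSubgroup ℚ) c m) :
    ∃ m', IsTwCoboundaryOn ρbar p (A.decompositionSubgroup ℚ) c m' := by
  rw [isTwCoboundaryOn_iff hp] at h
  obtain ⟨h0, h⟩ := h
  refine ⟨T ρbar p g⁻¹ (m + c g), ?_⟩
  rw [isTwCoboundaryOn_iff hp]
  refine ⟨?_, fun σ hσ => ?_⟩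
  · rw [trace_T, map_add, h0, hc.trace_eq_zero, add_zero, mul_zero]
  · have hconj := h (g * σ * g⁻¹) (Fermat.Agent.Lib.Cheb.H476.conj_mem_decomposition g hσ)
    -- expand `c (g σ g⁻¹)` by the cocycle rule
    have h1 : c (g * σ * g⁻¹) = c g + T ρbar p g (c σ) - T ρbar p (g * σ * g⁻¹) (c g) := by
      rw [coc_mul hp hc (g * σ) g⁻¹, coc_mul hp hc g σ, coc_inv hp hc g, T_neg,
        ← T_mul ρbar p hp (g * σ) g⁻¹, sub_eq_add_neg]
    rw [h1] at hconj
    -- solve for `T g (c σ)`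
    have h2 : T ρbar p g (c σ) = T ρbar p (g * σ * g⁻¹) (m + c g) - (m + c g) := by
      have h2' : T ρbar p g (c σ) =
          (T ρbar p (g * σ * g⁻¹) m - m) - c g + T ρbar p (g * σ * g⁻¹) (c g) := by
        rw [← hconj]
        abel
      rw [h2', T_add]
      abel
    -- apply `T g⁻¹`
    have h3 := congrArg (T ρbar p g⁻¹) h2
    have e : g⁻¹ * (g * σ * g⁻¹) = σ * g⁻¹ := by group
    rw [T_inv_T ρbar p hp, T_sub, ← T_mul ρbar p hp, e, T_mul ρbar p hp] at h3
    exact h3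

end action

end Fermat.Agent.S56.H966
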