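/-
S56 helper (helper966), piece TWP (2nd owner): one Taylor–Wiles prime from one Taylor–Wiles
element (TWP1 + TWP3), using Frobenius division (Lib/Cheb Tier 1).
-/
import Fermat.Agent.S56.H966.Tw
import Fermat.Agent.S55.Bridge.Cyclo

set_option autoImplicit false
set_option linter.style.haveILetI false

open scoped Pointwise
open Polynomial

noncomputable section

namespace Fermat.Agent.S56.H966

open Fermat.Agent.S56

/-! ### TWP1: a Frobenius over `q` fixing `μ_N` forces `N ∣ q - 1` -/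

theorem pow_apply_of_fix (σ : GQ) (μ : Qb) (h : σ μ = μ) (k : ℕ) : (σ ^ k) μ = μ := by
  induction k with
  | zero => simp
  | succ k ih => rw [pow_succ, AlgEquiv.mul_apply, h, ih]

theorem dvd_sub_one_of_frobenius_fixes {q p n : ℕ} (hq : q.Prime) (hp : p.Prime) (hqp : q ≠ p)
    {A : ValuationSubring Qb} (hA : A.LiesOverPrime q) {τ : GQ} (hτ : A.IsFrobeniusAt τ q)
    (hfix : ∀ μ : Qb, μ ^ p ^ (n + 1) = 1 → τ μ = μ) : p ^ (n + 1) ∣ q - 1 := by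
  have hN : p ^ (n + 1) ≠ 0 := pow_ne_zero _ hp.ne_zero
  obtain ⟨ζ, hζ⟩ := exists_primitiveRoot_Qb (p ^ (n + 1)) hN
  have hpv : A.valuation ((p ^ (n + 1) : ℕ) : Qb) = 1 := by
    rw [Nat.cast_pow, map_pow, Fermat.Agent.S55.Bridge.val_prime_eq_one hA hq hp hqp, one_pow]
  have hvζ : A.valuation ζ = 1 := by
    have h : (A.valuation ζ) ^ (p ^ (n + 1)) = 1 := by rw [← map_pow, hζ.pow_eq_one, map_one]
    exact (pow_eq_one_iff.1 h).resolve_right hN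
  have hζA : ζ ∈ A := (A.valuation_le_one_iff ζ).mp hvζ.le
  have hfrob := ((Fermat.Agent.Lib.Cheb.H476.isFrobeniusAt_iff A τ q).mp hτ).2 ζ hζA
  rw [hfix ζ hζ.pow_eq_one] at hfrob
  have hlt : A.valuation (ζ - ζ ^ q) < 1 := (A.mem_nonunits_iff).mp hfrob
  have heq : ζ = ζ ^ q := by
    by_contra hne
    have h1 := Fermat.Agent.S55.Bridge.val_sub_roots_eq_one (A := A) hN hpv hζ.pow_eq_one
      (show (ζ ^ q) ^ (p ^ (n + 1)) = 1 by rw [← pow_mul, mul_comm, pow_mul, hζ.pow_eq_one,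
        one_pow]) hne
    rw [h1] at hlt
    exact lt_irrefl _ hlt
  have hfin : IsOfFinOrder ζ :=
    isOfFinOrder_iff_pow_eq_one.mpr ⟨_, Nat.pos_of_ne_zero hN, hζ.pow_eq_one⟩
  have h2 : ζ ^ 1 = ζ ^ q := by rw [pow_one]; exact heq
  rw [hfin.pow_eq_pow_iff_modEq, ← hζ.eq_orderOf] at h2
  exact (Nat.modEq_iff_dvd' hq.one_le).mp h2

/-! ### Distinct eigenvalues pass to roots -/

section charpoly

variable {k : Type} [Field k] {V : Type} [AddCommGroup V] [Module k V] [Module.Finite k V]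

/-- If `g ^ j = f`, `f` has two distinct eigenvalues and the characteristic polynomial of `g`
splits, then `g` has two distinct eigenvalues. -/
theorem ne_of_pow_eq (f g : Module.End k V) (j : ℕ) (hfg : g ^ j = f) {α β a b : k}
    (hαβ : α ≠ β) (hf : LinearMap.charpoly f = (X - C α) * (X - C β))
    (hg : LinearMap.charpoly g = (X - C a) * (X - C b)) : a ≠ b := by
  rintro rfl
  -- `(g - a)^2 = 0` by Cayley–Hamilton, hence `(f - a^j)^2 = 0`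
  have hCH : aeval g ((X - C a) * (X - C a) : k[X]) = 0 := by
    rw [← hg]
    exact LinearMap.aeval_self_charpoly g
  obtain ⟨Q, hQ⟩ : (X - C a : k[X]) ∣ X ^ j - C a ^ j := sub_dvd_pow_sub_pow X (C a) j
  have hsq : aeval g ((X ^ j - C a ^ j) * (X ^ j - C a ^ j) : k[X]) = 0 := by
    have : ((X ^ j - C a ^ j) * (X ^ j - C a ^ j) : k[X]) =
        ((X - C a) * (X - C a)) * (Q * Q) := by rw [hQ]; ring
    rw [this, map_mul, hCH, zero_mul]
  have hsq' : (f - algebraMap k (Module.End k V) (a ^ j)) *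
      (f - algebraMap k (Module.End k V) (a ^ j)) = 0 := by
    have : aeval g (X ^ j - C a ^ j : k[X]) = f - algebraMap k (Module.End k V) (a ^ j) := by
      rw [map_sub, map_pow, map_pow, aeval_X, aeval_C, hfg, map_pow]
    rw [← this, ← map_mul]
    exact hsq
  -- eigenvalues of `f` are equal to `a ^ j`
  have key : ∀ γ : k, (LinearMap.charpoly f).IsRoot γ → γ = a ^ j := by
    intro γ hγ
    rw [← Module.End.hasEigenvalue_iff_isRoot_charpoly] at hγ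
    obtain ⟨v, hv⟩ := hγ.exists_hasEigenvector
    have hfv : f v = γ • v := hv.apply_eq_smul
    have h1 : (f - algebraMap k (Module.End k V) (a ^ j)) v = (γ - a ^ j) • v := by
      rw [LinearMap.sub_apply, hfv, Module.algebraMap_end_apply, sub_smul]
    have h2 := congrArg (fun F : Module.End k V => F v) hsq'
    simp only [Module.End.mul_apply, LinearMap.zero_apply] at h2
    rw [h1, map_smul, h1, smul_smul] at h2
    have h3 := (smul_eq_zero.mp h2).resolve_right hv.2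
    have h4 := mul_self_eq_zero.mp h3
    exact sub_eq_zero.mp h4
  have hα : α = a ^ j := key α (by rw [hf]; simp)
  have hβ : β = a ^ j := key β (by rw [hf]; simp)
  exact hαβ (hα.trans hβ.symm)

end charpoly

/-! ### One prime from one element (TWP3) -/

section core

variable {k : Type} [Field k] (ρbar : ResidualGaloisRep k)

/-- If `τ` and `σ` agree on `E` then `σ⁻¹ * τ` fixes `E` pointwise. -/
theorem inv_mul_apply_eq_of_agree' (E : IntermediateField ℚ Qb) {τ σ : GQ}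
    (h : ∀ x ∈ E, τ x = σ x) : ∀ x ∈ E, (σ⁻¹ * τ) x = x := by
  intro x hx
  rw [AlgEquiv.mul_apply, h x hx]
  exact σ.symm_apply_apply x

theorem rho_inv_eq_of_eq {g h : GQ} (hgh : ρbar.ρ g = ρbar.ρ h) : ρbar.ρ g⁻¹ = ρbar.ρ h⁻¹ := by
  calc ρbar.ρ g⁻¹ = ρbar.ρ g⁻¹ * (ρbar.ρ h * ρbar.ρ h⁻¹) := by rw [rho_mul_inv, mul_one]
    _ = (ρbar.ρ g⁻¹ * ρbar.ρ g) * ρbar.ρ h⁻¹ := by rw [← hgh, mul_assoc]
    _ = ρbar.ρ h⁻¹ := by rw [rho_inv_mul, one_mul]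

/-- **Core.**  From an element `σ` fixing `μ_{p^{n+1}}` with distinct eigenvalues: a prime
`q ∉ T`, `q ≡ 1 mod p^{n+1}`, all of whose Frobenius elements have distinct eigenvalues, and a
power `τ ^ j` of a Frobenius at `A ∣ q` which agrees with `σ` on `E₀`, on `μ_p` and under `ρ̄`. -/
theorem exists_frob_core (hFD : Fermat.Agent.Lib.Cheb.Spec.FrobeniusDivisionStatement)
    {p : ℕ} (hp : p.Prime)
    (hsplit : ∀ σ : GQ, ∃ α β : k, LinearMap.charpoly (ρbar.ρ σ) = (X - C α) * (X - C β))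
    (E₀ : IntermediateField ℚ Qb) (hE₀ : FiniteDimensional ℚ E₀) (n : ℕ) (T : Finset ℕ)
    (σ : GQ) (hσfix : ∀ μ : Qb, μ ^ p ^ (n + 1) = 1 → σ μ = μ)
    (hσ : ∃ α β : k, α ≠ β ∧ LinearMap.charpoly (ρbar.ρ σ) = (X - C α) * (X - C β)) :
    ∃ (q : ℕ) (A : ValuationSubring Qb) (τ : GQ) (j : ℕ),
      q.Prime ∧ q ∉ T ∧ p ^ (n + 1) ∣ q - 1 ∧ A.LiesOverPrime q ∧
      τ ^ j ∈ A.decompositionSubgroup ℚ ∧
      (∀ P : ValuationSubring Qb, P.LiesOverPrime q → ∀ φ : GQ, P.IsFrobeniusAt φ q →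
        ∃ α β : k, α ≠ β ∧ LinearMap.charpoly (ρbar.ρ φ) = (X - C α) * (X - C β)) ∧
      ρbar.ρ (τ ^ j) = ρbar.ρ σ ∧ (∀ x ∈ E₀, (τ ^ j) x = σ x) ∧
      (∀ μ : Qb, μ ^ p = 1 → (τ ^ j) μ = μ) := by
  obtain ⟨Lρ, hLρ, hρ⟩ := ρbar.factorsThroughFiniteLevel
  have hN : p ^ (n + 1) ≠ 0 := pow_ne_zero _ hp.ne_zero
  haveI : NeZero (p ^ (n + 1)) := ⟨hN⟩
  obtain ⟨ζ, hζ⟩ := exists_primitiveRoot_Qb (p ^ (n + 1)) hN
  haveI := hLρ
  haveI := hE₀
  haveI : FiniteDimensional ℚ (IntermediateField.adjoin ℚ {ζ}) :=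
    IntermediateField.adjoin.finiteDimensional
      ((hζ.isIntegral (Nat.pos_of_ne_zero hN)).tower_top)
  have hE : FiniteDimensional ℚ (Lρ ⊔ E₀ ⊔ IntermediateField.adjoin ℚ {ζ} :
      IntermediateField ℚ Qb) := inferInstance
  have hLρE : Lρ ≤ Lρ ⊔ E₀ ⊔ IntermediateField.adjoin ℚ {ζ} := le_sup_left.trans le_sup_left
  have hE₀E : E₀ ≤ Lρ ⊔ E₀ ⊔ IntermediateField.adjoin ℚ {ζ} := le_sup_right.trans le_sup_left
  have hζE : ζ ∈ Lρ ⊔ E₀ ⊔ IntermediateField.adjoin ℚ {ζ} :=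
    (le_sup_right : IntermediateField.adjoin ℚ {ζ} ≤ _)
      (IntermediateField.mem_adjoin_simple_self ℚ ζ)
  have hμE : ∀ μ : Qb, μ ^ p ^ (n + 1) = 1 →
      μ ∈ Lρ ⊔ E₀ ⊔ IntermediateField.adjoin ℚ {ζ} := by
    intro μ hμ
    obtain ⟨i, -, rfl⟩ := hζ.eq_pow_of_pow_eq_one hμ
    exact pow_mem hζE i
  obtain ⟨ℓ, A, τ, k', j, hℓ, hℓT, hA, hτ, hin, hk, hj⟩ := hFD _ hE σ (insert p T)
  have hℓp : ℓ ≠ p := fun h => hℓT (h ▸ Finset.mem_insert_self _ _)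
  have hℓT' : ℓ ∉ T := fun h => hℓT (Finset.mem_insert_of_mem h)
  have hτfix : ∀ μ : Qb, μ ^ p ^ (n + 1) = 1 → τ μ = μ := by
    intro μ hμ
    rw [hk μ (hμE μ hμ)]
    exact pow_apply_of_fix σ μ (hσfix μ hμ) k'
  have hρτ : ρbar.ρ (τ ^ j) = ρbar.ρ σ := by
    have h1 : ρbar.ρ (σ⁻¹ * τ ^ j) = 1 := hρ _ (fun x hx =>
      inv_mul_apply_eq_of_agree' _ hj x (hLρE hx))
    have h2 : ρbar.ρ (τ ^ j) = ρbar.ρ σ * ρbar.ρ (σ⁻¹ * τ ^ j) := by
      rw [← map_mul, mul_inv_cancel_left]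
    rw [h2, h1, mul_one]
  have hinρ : ∀ ι ∈ A.inertiaSubgroupIn ℚ, ρbar.ρ ι = 1 := fun ι hι =>
    hρ ι (fun x hx => hin ι hι x (hLρE hx))
  have hur : ρbar.IsUnramifiedAt ℓ := fun A' hA' σ' hσ' =>
    Fermat.Agent.Lib.Cheb.H476.map_inertia_eq_one_of_liesOver ρbar.ρ hℓ hA hA' hinρ σ' hσ'
  obtain ⟨α, β, hαβ, hf⟩ := hσ
  obtain ⟨a, b, hab⟩ := hsplit τ
  have hne : a ≠ b :=
    ne_of_pow_eq (ρbar.ρ σ) (ρbar.ρ τ) j (by rw [← map_pow]; exact hρτ) hαβ hf hab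
  refine ⟨ℓ, A, τ, j, hℓ, hℓT', dvd_sub_one_of_frobenius_fixes hℓ hp hℓp hA hτ hτfix, hA,
    pow_mem hτ.mem_decompositionSubgroup j, ?_, hρτ, fun x hx => hj x (hE₀E hx), ?_⟩
  · intro P hP φ hφ
    refine ⟨a, b, hne, ?_⟩
    rw [Fermat.Agent.Lib.Cheb.H476.charpoly_eq_of_isFrobeniusAt ρbar hℓ hur hA hP hτ hφ]
    exact hab
  · intro μ hμ
    have hμ' : μ ^ p ^ (n + 1) = 1 := by rw [pow_succ', pow_mul, hμ, one_pow]
    rw [hj μ (hμE μ hμ')]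
    exact hσfix μ hμ'

/-- **TWP3.**  One Taylor–Wiles prime at which a given cocycle stays nontrivial. -/
theorem exists_tw_prime_of_element (hFD : Fermat.Agent.Lib.Cheb.Spec.FrobeniusDivisionStatement)
    {p : ℕ} (hp : p.Prime)
    (hsplit : ∀ σ : GQ, ∃ α β : k, LinearMap.charpoly (ρbar.ρ σ) = (X - C α) * (X - C β))
    {c : GQ → Module.End k ρbar.V} (hc : IsTwCocycle ρbar p c) (n : ℕ) (T : Finset ℕ)
    (σ : GQ) (hσfix : ∀ μ : Qb, μ ^ p ^ (n + 1) = 1 → σ μ = μ)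
    (hσ : ∃ α β : k, α ≠ β ∧ LinearMap.charpoly (ρbar.ρ σ) = (X - C α) * (X - C β))
    (hσc : ∀ m : Module.End k ρbar.V, LinearMap.trace k ρbar.V m = 0 →
      c σ ≠ ρbar.ρ σ * m * ρbar.ρ σ⁻¹ - m) :
    ∃ (q : ℕ) (A : ValuationSubring Qb),
      q.Prime ∧ q ∉ T ∧ p ^ (n + 1) ∣ q - 1 ∧ A.LiesOverPrime q ∧
      (∀ P : ValuationSubring Qb, P.LiesOverPrime q → ∀ φ : GQ, P.IsFrobeniusAt φ q →
        ∃ α β : k, α ≠ β ∧ LinearMap.charpoly (ρbar.ρ φ) = (X - C α) * (X - C β)) ∧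
      ¬ ∃ m, IsTwCoboundaryOn ρbar p (A.decompositionSubgroup ℚ) c m := by
  obtain ⟨Lc, hLc, hlevel⟩ := hc.level
  obtain ⟨q, A, τ, j, hq, hqT, hdvd, hA, hτD, heig, hρτ, hagree, hfixp⟩ :=
    exists_frob_core ρbar hFD hp hsplit Lc hLc n T σ hσfix hσ
  refine ⟨q, A, hq, hqT, hdvd, hA, heig, ?_⟩
  rintro ⟨m, hm0, hm⟩
  have hexp : IsCycExp p (τ ^ j) 1 := fun μ hμ => by rw [pow_one]; exact hfixp μ hμ
  have h1 := hm (τ ^ j) hτD 1 hexp
  have h2 : c (τ ^ j) = c σ := by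
    have := hlevel σ (σ⁻¹ * τ ^ j)
      (inv_mul_apply_eq_of_agree' Lc hagree)
    rwa [mul_inv_cancel_left] at this
  rw [h2] at h1
  unfold twAd at h1
  rw [Nat.cast_one, one_smul, hρτ, rho_inv_eq_of_eq ρbar hρτ] at h1
  exact hσc m hm0 h1

/-- **Padding primes.**  A Taylor–Wiles prime outside `T`. -/
theorem exists_tw_prime_pad (hFD : Fermat.Agent.Lib.Cheb.Spec.FrobeniusDivisionStatement)
    {p : ℕ} (hp : p.Prime)
    (hsplit : ∀ σ : GQ, ∃ α β : k, LinearMap.charpoly (ρbar.ρ σ) = (X - C α) * (X - C β))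
    (n : ℕ) (T : Finset ℕ)
    (σ : GQ) (hσfix : ∀ μ : Qb, μ ^ p ^ (n + 1) = 1 → σ μ = μ)
    (hσ : ∃ α β : k, α ≠ β ∧ LinearMap.charpoly (ρbar.ρ σ) = (X - C α) * (X - C β)) :
    ∃ (q : ℕ) (A : ValuationSubring Qb),
      q.Prime ∧ q ∉ T ∧ p ^ (n + 1) ∣ q - 1 ∧ A.LiesOverPrime q ∧
      (∀ P : ValuationSubring Qb, P.LiesOverPrime q → ∀ φ : GQ, P.IsFrobeniusAt φ q →
        ∃ α β : k, α ≠ β ∧ LinearMap.charpoly (ρbar.ρ φ) = (X - C α) * (X - C β)) := by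
  obtain ⟨q, A, τ, j, hq, hqT, hdvd, hA, -, heig, -, -, -⟩ :=
    exists_frob_core ρbar hFD hp hsplit ⊥ inferInstance n T σ hσfix hσ
  exact ⟨q, A, hq, hqT, hdvd, hA, heig⟩

end core

end Fermat.Agent.S56.H966
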