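/-
S56 helper (helper966), piece TWP (2nd owner):
`twPrimesOfElement : TWPrimesOfElementStatement`
(= `TWElementStatement → Lib.Cheb.Spec.FrobeniusDivisionStatement → TWPrimesStatement`).
Induction on the dimension of the part of the dual frame which is locally trivial at the primes
already chosen (TWP4), using TWP2 (`Tw.lean`) and TWP1/TWP3 (`TWPrime.lean`).
-/
import Fermat.Agent.S56.H966.TWPrime

set_option autoImplicit false
set_option linter.style.haveILetI false

open scoped Pointwise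
open Polynomial IsLocalRing

noncomputable section

namespace Fermat.Agent.S56.H966

open Fermat.Agent.S56

section sub

variable {k : Type} [Field k] (ρbar : ResidualGaloisRep k) (p : ℕ)

/-- The part of `D` which is a coboundary on the decomposition groups of the chosen valuation
subrings `Aq q`, `q ∈ Q`. -/
def Dsub (D : Submodule k (GQ → Module.End k ρbar.V)) (Q : Finset ℕ)
    (Aq : ℕ → ValuationSubring Qb) : Submodule k (GQ → Module.End k ρbar.V) where
  carrier := {c | c ∈ D ∧ ∀ q ∈ Q, ∃ m, LinearMap.trace k ρbar.V m = 0 ∧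
    ∀ σ ∈ (Aq q).decompositionSubgroup ℚ, c σ = T ρbar p σ m - m}
  add_mem' := by
    rintro c c' ⟨hc, h⟩ ⟨hc', h'⟩
    refine ⟨D.add_mem hc hc', fun q hq => ?_⟩
    obtain ⟨m, hm0, hm⟩ := h q hq
    obtain ⟨m', hm0', hm'⟩ := h' q hq
    refine ⟨m + m', by rw [map_add, hm0, hm0', add_zero], fun σ hσ => ?_⟩
    rw [Pi.add_apply, hm σ hσ, hm' σ hσ, T_add]
    abel
  zero_mem' := by
    refine ⟨D.zero_mem, fun q _ => ⟨0, map_zero _, fun σ _ => ?_⟩⟩
    have hT0 : T ρbar p σ 0 = 0 := by unfold T; rw [mul_zero, zero_mul, smul_zero]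
    rw [Pi.zero_apply, hT0, sub_zero]
  smul_mem' := by
    rintro a c ⟨hc, h⟩
    refine ⟨D.smul_mem a hc, fun q hq => ?_⟩
    obtain ⟨m, hm0, hm⟩ := h q hq
    refine ⟨a • m, by rw [map_smul, hm0, smul_zero], fun σ hσ => ?_⟩
    rw [Pi.smul_apply, hm σ hσ, T_smul, smul_sub]

theorem Dsub_le (D : Submodule k (GQ → Module.End k ρbar.V)) (Q : Finset ℕ)
    (Aq : ℕ → ValuationSubring Qb) : Dsub ρbar p D Q Aq ≤ D := fun _ h => h.1

theorem Dsub_insert_le (D : Submodule k (GQ → Module.End k ρbar.V)) (Q : Finset ℕ)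
    (Aq : ℕ → ValuationSubring Qb) (q : ℕ) (hq : q ∉ Q) (A : ValuationSubring Qb) :
    Dsub ρbar p D (insert q Q) (Function.update Aq q A) ≤ Dsub ρbar p D Q Aq := by
  rintro c ⟨hc, h⟩
  refine ⟨hc, fun q' hq' => ?_⟩
  have hne : q' ≠ q := fun e => hq (e ▸ hq')
  have := h q' (Finset.mem_insert_of_mem hq')
  rwa [Function.update_of_ne hne] at this

end sub

/-! ### The induction (TWP4) and the final statement -/

section main

variable {k : Type} [Field k] (ρbar : ResidualGaloisRep k) {p : ℕ}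

/-- Properties of a chosen prime. -/
def GoodPrime (ρbar : ResidualGaloisRep k) (p n : ℕ) (S : Finset ℕ) (q : ℕ)
    (A : ValuationSubring Qb) : Prop :=
  q.Prime ∧ q ∉ S ∧ p ^ (n + 1) ∣ q - 1 ∧ A.LiesOverPrime q ∧
    ∀ P : ValuationSubring Qb, P.LiesOverPrime q → ∀ φ : GQ, P.IsFrobeniusAt φ q →
      ∃ α β : k, α ≠ β ∧ LinearMap.charpoly (ρbar.ρ φ) = (X - C α) * (X - C β)

theorem exists_primes_aux [CharP k p] (hp : p.Prime)
    (hFD : Fermat.Agent.Lib.Cheb.Spec.FrobeniusDivisionStatement)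
    (hsplit : ∀ σ : GQ, ∃ α β : k, LinearMap.charpoly (ρbar.ρ σ) = (X - C α) * (X - C β))
    (S : Finset ℕ) (n : ℕ)
    (h1 : ∀ c : GQ → Module.End k ρbar.V, IsTwCocycle ρbar p c →
      ¬ IsTwCoboundary ρbar p c →
      ∃ σ : GQ, (∀ μ : Qb, μ ^ p ^ (n + 1) = 1 → σ μ = μ) ∧
        (∃ α β : k, α ≠ β ∧ LinearMap.charpoly (ρbar.ρ σ) = (X - C α) * (X - C β)) ∧
        ∀ m : Module.End k ρbar.V, LinearMap.trace k ρbar.V m = 0 →
          c σ ≠ ρbar.ρ σ * m * ρbar.ρ σ⁻¹ - m)
    (h2 : ∃ σ : GQ, (∀ μ : Qb, μ ^ p ^ (n + 1) = 1 → σ μ = μ) ∧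
        ∃ α β : k, α ≠ β ∧ LinearMap.charpoly (ρbar.ρ σ) = (X - C α) * (X - C β))
    (D : Submodule k (GQ → Module.End k ρbar.V)) (hD : IsDualFrame ρbar p D) :
    ∀ i : ℕ, i ≤ Module.finrank k D →
      ∃ (Q : Finset ℕ) (Aq : ℕ → ValuationSubring Qb), Q.card = i ∧
        (∀ q ∈ Q, GoodPrime ρbar p n S q (Aq q)) ∧
        Module.finrank k (Dsub ρbar p D Q Aq) + i ≤ Module.finrank k D := by
  haveI := hD.finite
  intro i
  induction i with
  | zero =>
    intro _
    refine ⟨∅, fun _ => ⊤, rfl, fun q hq => absurd hq (Finset.notMem_empty q), ?_⟩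
    rw [add_zero]
    exact Submodule.finrank_mono (Dsub_le ρbar p D _ _)
  | succ i ih =>
    intro hi
    obtain ⟨Q, Aq, hcard, hgood, hrank⟩ := ih (Nat.le_of_succ_le hi)
    by_cases hbot : Dsub ρbar p D Q Aq = ⊥
    · -- padding prime
      obtain ⟨σ, hσfix, hσ⟩ := h2
      obtain ⟨q, A, hq, hqT, hdvd, hA, heig⟩ :=
        exists_tw_prime_pad ρbar hFD hp hsplit n (S ∪ Q) σ hσfix hσ
      have hqS : q ∉ S := fun h => hqT (Finset.mem_union_left _ h)
      have hqQ : q ∉ Q := fun h => hqT (Finset.mem_union_right _ h)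
      refine ⟨insert q Q, Function.update Aq q A, ?_, ?_, ?_⟩
      · rw [Finset.card_insert_of_notMem hqQ, hcard]
      · intro q' hq'
        rcases Finset.mem_insert.mp hq' with rfl | hq'
        · rw [Function.update_self]
          exact ⟨hq, hqS, hdvd, hA, heig⟩
        · have hne : q' ≠ q := fun e => hqQ (e ▸ hq')
          rw [Function.update_of_ne hne]
          exact hgood q' hq'
      · have hle := Dsub_insert_le ρbar p D Q Aq q hqQ A
        rw [hbot, le_bot_iff] at hle
        rw [hle, finrank_bot, zero_add]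
        exact hi
    · -- a nonzero class, killed by a new prime
      obtain ⟨c, hcmem, hc0⟩ := (Submodule.ne_bot_iff _).mp hbot
      have hcD : c ∈ D := hcmem.1
      have hcoc : IsTwCocycle ρbar p c := hD.isTwCocycle c hcD
      have hncob : ¬ IsTwCoboundary ρbar p c := fun h => hc0 (hD.inj c hcD h)
      obtain ⟨σ, hσfix, hσ, hσc⟩ := h1 c hcoc hncob
      obtain ⟨q, A, hq, hqT, hdvd, hA, heig, hnot⟩ :=
        exists_tw_prime_of_element ρbar hFD hp hsplit hcoc n (S ∪ Q) σ hσfix hσ hσc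
      have hqS : q ∉ S := fun h => hqT (Finset.mem_union_left _ h)
      have hqQ : q ∉ Q := fun h => hqT (Finset.mem_union_right _ h)
      refine ⟨insert q Q, Function.update Aq q A, ?_, ?_, ?_⟩
      · rw [Finset.card_insert_of_notMem hqQ, hcard]
      · intro q' hq'
        rcases Finset.mem_insert.mp hq' with rfl | hq'
        · rw [Function.update_self]
          exact ⟨hq, hqS, hdvd, hA, heig⟩
        · have hne : q' ≠ q := fun e => hqQ (e ▸ hq')
          rw [Function.update_of_ne hne]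
          exact hgood q' hq'
      · have hle := Dsub_insert_le ρbar p D Q Aq q hqQ A
        have hlt : Dsub ρbar p D (insert q Q) (Function.update Aq q A) < Dsub ρbar p D Q Aq := by
          refine lt_of_le_of_ne hle fun heq => ?_
          rw [← heq] at hcmem
          obtain ⟨m, hm0, hm⟩ := hcmem.2 q (Finset.mem_insert_self q Q)
          rw [Function.update_self] at hm
          exact hnot ⟨m, (isTwCoboundaryOn_iff hp.ne_zero _ c m).mpr ⟨hm0, hm⟩⟩
        haveI : Module.Finite k (Dsub ρbar p D Q Aq) :=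
          Module.Finite.of_injective (Submodule.inclusion (Dsub_le ρbar p D Q Aq))
            (Submodule.inclusion_injective _)
        have := Submodule.finrank_lt_finrank_of_lt hlt
        omega

/-- **TWP.**  Taylor–Wiles primes from the Taylor–Wiles element and Frobenius division. -/
theorem twPrimesOfElement : TWPrimesOfElementStatement := by
  intro hTWE hFD 𝒪 _ _ _ _ _ p ρbar S Smin hyp D hD n
  have hp : p.Prime := hyp.hp
  haveI : CharP (ResidueField 𝒪) p := by
    rw [CharP.charP_iff_prime_eq_zero hp]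
    have h := (IsLocalRing.residue_eq_zero_iff (p : 𝒪)).mpr hyp.hp𝒪
    rwa [map_natCast] at h
  haveI := hD.finite
  obtain ⟨h1, h2⟩ := hTWE 𝒪 p ρbar S Smin hyp
  obtain ⟨Q, Aq, hcard, hgood, hrank⟩ :=
    exists_primes_aux ρbar hp hFD hyp.hsplit S n (fun c hc hnc => h1 c hc hnc n) (h2 n) D hD
      (Module.finrank (ResidueField 𝒪) D) le_rfl
  haveI : Module.Finite (ResidueField 𝒪) (Dsub ρbar p D Q Aq) :=
    Module.Finite.of_injective (Submodule.inclusion (Dsub_le ρbar p D Q Aq))
      (Submodule.inclusion_injective _)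
  have hbot : Dsub ρbar p D Q Aq = ⊥ := by
    have h0 : Module.finrank (ResidueField 𝒪) (Dsub ρbar p D Q Aq) = 0 := by omega
    exact Submodule.finrank_eq_zero.mp h0
  have himage : Finset.univ.image (fun i => Q.orderEmbOfFin hcard i) = Q :=
    Finset.image_orderEmbOfFin_univ Q hcard
  refine ⟨fun i => Q.orderEmbOfFin hcard i, (Q.orderEmbOfFin hcard).injective, ?_, ?_, ?_⟩
  · intro i
    obtain ⟨hq, hqS, hdvd, -, -⟩ := hgood _ (Finset.orderEmbOfFin_mem Q hcard i)
    exact ⟨hq, hqS, hdvd⟩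
  · intro i P hP φ hφ
    exact (hgood _ (Finset.orderEmbOfFin_mem Q hcard i)).2.2.2.2 P hP φ hφ
  · rw [himage]
    intro c hcD hloc
    have hcoc : IsTwCocycle ρbar p c := hD.isTwCocycle c hcD
    have hmem : c ∈ Dsub ρbar p D Q Aq := by
      refine ⟨hcD, fun q hq => ?_⟩
      obtain ⟨hqp, -, -, hA, -⟩ := hgood q hq
      obtain ⟨P, hP, m, hm⟩ := hloc q hq
      obtain ⟨g, hg⟩ := Fermat.Agent.Lib.Cheb.H476.exists_smul_eq hqp hA hP
      rw [← hg] at hm
      obtain ⟨m', hm'⟩ := coboundaryOn_of_smul hp.ne_zero hcoc g (Aq q) hm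
      exact ⟨m', (isTwCoboundaryOn_iff hp.ne_zero _ c m').mp hm'⟩
    rw [hbot] at hmem
    exact (Submodule.mem_bot _).mp hmem

end main

end Fermat.Agent.S56.H966
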